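import Mathlib

/-!
# JT3 / F-core: the charts `B₁, B₂, B₁₂` of the two-chart model and clearing of denominators

`fc_chart A0 S` is the integral closure of `A0[S]` in the field `F0`, as an `A0`-subalgebra.
The charts are `fc_chart A0 {x}`, `fc_chart A0 {x⁻¹}`, `fc_chart A0 {x, x⁻¹}`.
`fc_clear1`, `fc_clear2`: `B₁₂ = B₁[1/x] = B₂[x]`.
-/

set_option autoImplicit false
set_option linter.unusedSectionVars false

namespace Fermat.Agent.JT3

open Polynomial


section Charts

universe v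

variable {A0 : Type*} [CommRing A0] {F0 : Type v} [Field F0] [Algebra A0 F0]

/-- The chart attached to a set `S` of coordinates: the integral closure of `A0[S]` in `F0`, as an
`A0`-subalgebra of `F0`. -/
def fc_chart (A0 : Type*) [CommRing A0] {F0 : Type v} [Field F0] [Algebra A0 F0] (S : Set F0) :
    Subalgebra A0 F0 :=
  (integralClosure (Algebra.adjoin A0 S) F0).restrictScalars A0

theorem fc_mem_chart {S : Set F0} {z : F0} :
    z ∈ fc_chart A0 S ↔ IsIntegral (Algebra.adjoin A0 S) z := Iff.rfl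

theorem fc_adjoin_le_chart (S : Set F0) : Algebra.adjoin A0 S ≤ fc_chart A0 S := by
  intro z hz
  rw [fc_mem_chart]
  exact isIntegral_algebraMap (R := Algebra.adjoin A0 S) (x := ⟨z, hz⟩)

theorem fc_chart_mono {S T : Set F0} (h : S ⊆ T) : fc_chart A0 S ≤ fc_chart A0 T := by
  intro z hz
  rw [fc_mem_chart] at hz ⊢
  have := IsIntegral.map_of_comp_eq (R := Algebra.adjoin A0 S) (S := F0)
    (T := Algebra.adjoin A0 T) (U := F0)
    (Subalgebra.inclusion (Algebra.adjoin_mono h)).toRingHom (RingHom.id F0)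
    (by ext r; rfl) hz
  exact this

theorem fc_chart_root {S : Set F0} {m : ℕ} (hm : m ≠ 0) {z : F0} (h : z ^ m ∈ fc_chart A0 S) :
    z ∈ fc_chart A0 S := by
  rw [fc_mem_chart] at h ⊢
  exact IsIntegral.of_pow (Nat.pos_of_ne_zero hm) h

instance fc_chart_isFractionRing (S : Set F0) [Algebra.IsAlgebraic (Algebra.adjoin A0 S) F0] :
    IsFractionRing (fc_chart A0 S) F0 :=
  integralClosure.isFractionRing_of_algebraic (A := Algebra.adjoin A0 S) (L := F0)
    (fun x hx => by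
      have : (x : F0) = 0 := hx
      exact Subtype.ext this)

end Charts




section Clear

universe v

variable {A0 : Type*} [CommRing A0] {F0 : Type v} [Field F0] [Algebra A0 F0]

/-- A general clearing-denominators lemma: `R ≤ R'` subalgebras of a field, `s ∈ R`; if every
element `c` of `R'` satisfies `sⁿ c ∈ R` for all large `n`, then for every `z` integral over `R'`
some `sᵏ z` is integral over `R`. -/
theorem fc_clear_aux (R R' : Subalgebra A0 F0) (s : F0) (hsR' : s ∈ R')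
    (hclear : ∀ c ∈ R', ∃ k : ℕ, ∀ n, k ≤ n → s ^ n * c ∈ R)
    {z : F0} (hz : IsIntegral R' z) : ∃ k : ℕ, IsIntegral R (s ^ k * z) := by
  classical
  obtain ⟨p, hpm, hpz⟩ := hz
  choose! κ hκ using hclear
  set k : ℕ := (Finset.range (p.natDegree + 1)).sup fun i => κ (p.coeff i : F0) with hk
  refine ⟨k, ?_⟩
  set σ : R' := ⟨s, hsR'⟩ ^ k with hσ
  have hσF : algebraMap R' F0 σ = s ^ k := by rw [hσ, map_pow]; rfl
  set P : F0[X] := (scaleRoots p σ).map (algebraMap R' F0) with hP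
  have hPmonic : P.Monic := ((monic_scaleRoots_iff σ).2 hpm).map _
  have hPz : eval (s ^ k * z) P = 0 := by
    rw [hP, eval_map, ← hσF]
    exact scaleRoots_eval₂_eq_zero _ hpz
  have hcoef : ∀ i, P.coeff i ∈ (algebraMap R F0).range := by
    intro i
    rw [hP, coeff_map, coeff_scaleRoots, map_mul, map_pow, hσF]
    rcases lt_trichotomy i p.natDegree with hi | hi | hi
    · have hki : κ (p.coeff i : F0) ≤ k := by
        rw [hk]
        exact Finset.le_sup (f := fun i => κ (p.coeff i : F0))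
          (Finset.mem_range.2 (Nat.lt_succ_of_lt hi))
      have h1 : k ≤ k * (p.natDegree - i) := Nat.le_mul_of_pos_right k (Nat.sub_pos_of_lt hi)
      have := hκ (p.coeff i : F0) (p.coeff i).2 (k * (p.natDegree - i)) (hki.trans h1)
      rw [← pow_mul, mul_comm]
      exact ⟨⟨_, this⟩, rfl⟩
    · rw [hi, Nat.sub_self, pow_zero, mul_one]
      have : p.coeff p.natDegree = 1 := hpm
      rw [this, map_one]
      exact one_mem _
    · rw [coeff_eq_zero_of_natDegree_lt hi, map_zero, zero_mul]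
      exact zero_mem _
  have hlift : P ∈ Polynomial.lifts (algebraMap R F0) :=
    (Polynomial.lifts_iff_coeff_lifts P).2 hcoef
  obtain ⟨q, hq, -, hqm⟩ := Polynomial.lifts_and_degree_eq_and_monic hlift hPmonic
  refine ⟨q, hqm, ?_⟩
  rw [← eval_map, hq, hPz]

/-- `xⁿ c ∈ A0[x]` for `c ∈ A0[x, x⁻¹]` and `n` large. -/
theorem fc_adjoin_pair_clear {x : F0} (hx : x ≠ 0) :
    ∀ c ∈ Algebra.adjoin A0 ({x, x⁻¹} : Set F0), ∃ k : ℕ, ∀ n, k ≤ n →
      x ^ n * c ∈ Algebra.adjoin A0 ({x} : Set F0) := by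
  have hxmem : x ∈ Algebra.adjoin A0 ({x} : Set F0) := Algebra.subset_adjoin rfl
  intro c hc
  induction hc using Algebra.adjoin_induction with
  | mem y hy =>
    rcases hy with rfl | rfl
    · exact ⟨0, fun n _ => mul_mem (pow_mem hxmem n) hxmem⟩
    · refine ⟨1, fun n hn => ?_⟩
      obtain ⟨j, rfl⟩ := Nat.exists_eq_add_of_le hn
      rw [add_comm, pow_succ, mul_assoc, mul_inv_cancel₀ hx, mul_one]
      exact pow_mem hxmem j
  | algebraMap a =>
    exact ⟨0, fun n _ => mul_mem (pow_mem hxmem n) (Subalgebra.algebraMap_mem _ a)⟩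
  | add c1 c2 _ _ h1 h2 =>
    obtain ⟨k1, h1⟩ := h1
    obtain ⟨k2, h2⟩ := h2
    refine ⟨max k1 k2, fun n hn => ?_⟩
    rw [mul_add]
    exact add_mem (h1 n ((le_max_left _ _).trans hn)) (h2 n ((le_max_right _ _).trans hn))
  | mul c1 c2 _ _ h1 h2 =>
    obtain ⟨k1, h1⟩ := h1
    obtain ⟨k2, h2⟩ := h2
    refine ⟨k1 + k2, fun n hn => ?_⟩
    obtain ⟨j, rfl⟩ := Nat.exists_eq_add_of_le hn
    have : x ^ (k1 + k2 + j) * (c1 * c2) = (x ^ k1 * c1) * (x ^ (k2 + j) * c2) := by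
      rw [pow_add, pow_add, pow_add]; ring
    rw [this]
    exact mul_mem (h1 k1 le_rfl) (h2 (k2 + j) (Nat.le_add_right _ _))

end Clear


section ClearCharts

universe v

variable {A0 : Type*} [CommRing A0] {F0 : Type v} [Field F0] [Algebra A0 F0]

theorem fc_x_mem_chart (x : F0) : x ∈ fc_chart A0 ({x} : Set F0) :=
  fc_adjoin_le_chart _ (Algebra.subset_adjoin rfl)

theorem fc_chart1_le (x : F0) : fc_chart A0 ({x} : Set F0) ≤ fc_chart A0 ({x, x⁻¹} : Set F0) :=
  fc_chart_mono (by intro y hy; rw [Set.mem_singleton_iff] at hy; rw [hy]; exact Set.mem_insert _ _)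

theorem fc_chart2_le (x : F0) : fc_chart A0 ({x⁻¹} : Set F0) ≤ fc_chart A0 ({x, x⁻¹} : Set F0) :=
  fc_chart_mono (by
    intro y hy; rw [Set.mem_singleton_iff] at hy; rw [hy]
    exact Set.mem_insert_of_mem _ rfl)

/-- `B₁₂ = B₁[1/x]`. -/
theorem fc_clear1 {x : F0} (hx : x ≠ 0) {z : F0} (hz : z ∈ fc_chart A0 ({x, x⁻¹} : Set F0)) :
    ∃ k : ℕ, x ^ k * z ∈ fc_chart A0 ({x} : Set F0) :=
  fc_clear_aux (Algebra.adjoin A0 ({x} : Set F0)) (Algebra.adjoin A0 ({x, x⁻¹} : Set F0)) x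
    (Algebra.subset_adjoin (Set.mem_insert _ _)) (fc_adjoin_pair_clear hx) hz

/-- `B₁₂ = B₂[x]`. -/
theorem fc_clear2 {x : F0} (hx : x ≠ 0) {z : F0} (hz : z ∈ fc_chart A0 ({x, x⁻¹} : Set F0)) :
    ∃ k : ℕ, x⁻¹ ^ k * z ∈ fc_chart A0 ({x⁻¹} : Set F0) := by
  have hset : ({x⁻¹, x⁻¹⁻¹} : Set F0) = {x, x⁻¹} := by rw [inv_inv, Set.pair_comm]
  have h := fc_adjoin_pair_clear (A0 := A0) (inv_ne_zero hx)
  rw [hset] at h
  exact fc_clear_aux (Algebra.adjoin A0 ({x⁻¹} : Set F0)) (Algebra.adjoin A0 ({x, x⁻¹} : Set F0))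
    x⁻¹ (Algebra.subset_adjoin (Set.mem_insert_of_mem _ rfl)) h hz

end ClearCharts

end Fermat.Agent.JT3
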