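import Mathlib
import Fermat.Agent.JT3.Riemann.Approx

/-!
# JT3 / F-core: `B₁ ∩ B₂ = A₀` (prefix `fch_`)

`A₀` an integrally closed domain with fraction field `K₀`, `F₀ / K₀` a field extension in which
`K₀` is algebraically closed, `x ∈ F₀` transcendental over `K₀`.  An element of `F₀` integral over
both `A₀[x]` and `A₀[x⁻¹]` lies in `A₀` (`fch_H0`).
-/

set_option autoImplicit false

namespace Fermat.Agent.JT3

open Polynomial

section

variable {A0 K0 F0 : Type*} [CommRing A0] [Field K0] [Algebra A0 K0] [Field F0] [Algebra K0 F0]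
  [Algebra A0 F0] [IsScalarTower A0 K0 F0]

/-- Integrality over `A₀[y]` implies integrality over `K₀[y]`. -/
theorem fch_isIntegral_mono (y z : F0)
    (h : IsIntegral (Algebra.adjoin A0 ({y} : Set F0)) z) :
    IsIntegral (Algebra.adjoin K0 ({y} : Set F0)) z := by
  have hle : Algebra.adjoin A0 ({y} : Set F0) ≤
      (Algebra.adjoin K0 ({y} : Set F0)).restrictScalars A0 :=
    Algebra.adjoin_le (by
      intro t ht
      rw [Set.mem_singleton_iff.1 ht, SetLike.mem_coe, Subalgebra.mem_restrictScalars]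
      exact Algebra.subset_adjoin (Set.mem_singleton y))
  let φ : Algebra.adjoin A0 ({y} : Set F0) →+* Algebra.adjoin K0 ({y} : Set F0) :=
    (Subalgebra.inclusion hle).toRingHom
  have := IsIntegral.map_of_comp_eq φ (RingHom.id F0) (by ext; rfl) h
  simpa using this

/-- A constant integral over `A₀[x]`, `x` transcendental, is integral over `A₀`. -/
theorem fch_isIntegral_const (x : F0) (hx : Transcendental K0 x) (c : K0)
    (h1 : IsIntegral (Algebra.adjoin A0 ({x} : Set F0)) (algebraMap K0 F0 c)) :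
    IsIntegral A0 c := by
  classical
  -- the surjection `A₀[X] → A₀[x]`
  have hmem : ∀ p : A0[X], aeval x p ∈ Algebra.adjoin A0 ({x} : Set F0) := by
    intro p
    rw [Algebra.adjoin_singleton_eq_range_aeval]
    exact ⟨p, rfl⟩
  let f : A0[X] →+* Algebra.adjoin A0 ({x} : Set F0) :=
    ((aeval x : A0[X] →ₐ[A0] F0).codRestrict _ hmem).toRingHom
  have hf : Function.Surjective f := by
    rintro ⟨s, hs⟩
    rw [Algebra.adjoin_singleton_eq_range_aeval] at hs
    obtain ⟨p, hp⟩ := hs
    exact ⟨p, Subtype.ext hp⟩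
  obtain ⟨p, hpm, hp0⟩ := h1
  obtain ⟨P, hP, -, hPm⟩ :=
    lifts_and_degree_eq_and_monic ((mem_lifts p).2 (Polynomial.map_surjective f hf p)) hpm
  -- rewrite the relation over `K₀[X]`
  let m : A0[X] →+* K0[X] := mapRingHom (algebraMap A0 K0)
  let g : K0[X] →+* F0 := (aeval x : K0[X] →ₐ[K0] F0).toRingHom
  have hcomp : (algebraMap (Algebra.adjoin A0 ({x} : Set F0)) F0).comp f = g.comp m := by
    ext q
    · simp [f, g, m, IsScalarTower.algebraMap_apply A0 K0 F0]
    · simp [f, g, m]
  have hgc : g (C c) = algebraMap K0 F0 c := by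
    simp [g]
  have h2 : g (P.eval₂ m (C c)) = 0 := by
    rw [hom_eval₂, ← hcomp, hgc, ← eval₂_map, hP]
    exact hp0
  have hginj : Function.Injective g := transcendental_iff_injective.1 hx
  have h3 : P.eval₂ m (C c) = 0 := hginj (by rw [h2, map_zero])
  -- evaluate at `X = 0`
  have h4 := congrArg (evalRingHom (0 : K0)) h3
  rw [hom_eval₂, map_zero] at h4
  have hcomp2 : (evalRingHom (0 : K0)).comp m = (algebraMap A0 K0).comp (evalRingHom (0 : A0)) := by
    ext q
    · simp [m]
    · simp [m]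
  rw [hcomp2, ← eval₂_map] at h4
  refine ⟨P.map (evalRingHom (0 : A0)), hPm.map _, ?_⟩
  simpa using h4

end

/-- **`B₁ ∩ B₂ = A₀`.** -/
theorem fch_H0 {A0 K0 F0 : Type*} [CommRing A0] [IsDomain A0] [IsIntegrallyClosed A0] [Field K0]
    [Algebra A0 K0] [IsFractionRing A0 K0] [Field F0] [Algebra K0 F0] [Algebra A0 F0]
    [IsScalarTower A0 K0 F0] (x : F0) (hx : Transcendental K0 x)
    (hconst : ∀ z : F0, IsAlgebraic K0 z → z ∈ (algebraMap K0 F0).range) (z : F0)
    (h1 : IsIntegral (Algebra.adjoin A0 ({x} : Set F0)) z)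
    (h2 : IsIntegral (Algebra.adjoin A0 ({x⁻¹} : Set F0)) z) : z ∈ (algebraMap A0 F0).range := by
  have halg : IsAlgebraic K0 z :=
    rt_isAlgebraic_of_isIntegral_both hx z (fch_isIntegral_mono x z h1)
      (fch_isIntegral_mono x⁻¹ z h2)
  obtain ⟨c, rfl⟩ := hconst z halg
  have hc : IsIntegral A0 c := fch_isIntegral_const x hx c h1
  obtain ⟨a, rfl⟩ := (IsIntegrallyClosed.isIntegral_iff (R := A0) (K := K0)).1 hc
  exact ⟨a, by rw [IsScalarTower.algebraMap_apply A0 K0 F0]⟩

end Fermat.Agent.JT3
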