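import Mathlib
import Fermat.Agent.JT3.Algebra.FormalIdem

/-!
# JT3 / F-core: finiteness of `H¹` of a rank-one module on a two-chart model (Čech form)

`x` a unit of a commutative ring `F` with inverse `y`; `M₁`, `M₂`, `M₁₂` submodules of `F` over the
base ring `A0` (sections on the chart `x`, on the chart `1/x` and on the overlap) with
`x M₁ ⊆ M₁`, `y M₂ ⊆ M₂`, `M₁₂ = ⋃ yⁿ M₁`, every element of `M₁` lies in some `xᵉ M₂`, and `M₁`
generated by finitely many `b` over `A0[x]`.  Then `M₁₂ ≤ (M₁ ⊔ M₂) ⊔ T` with `T` finitely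
generated over `A0` (`fc_gen`), hence the `π`-power torsion of `M₁₂ / (M₁ + M₂)` is killed by a
fixed power of `π` (`fc_hbound`).
-/

set_option autoImplicit false

namespace Fermat.Agent.JT3

section Bound

variable {A M : Type*} [CommRing A] [IsNoetherianRing A] [AddCommGroup M] [Module A M]

/-- Torsion bound relative to a finitely generated complement. -/
theorem fc_bound (π : A) (U I12 T : Submodule A M) (hT : T.FG) (h : I12 ≤ U ⊔ T) :
    ∃ c0 : ℕ, ∀ μ ∈ I12, ∀ n : ℕ, π ^ n • μ ∈ U → π ^ c0 • μ ∈ U := by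
  have : Module.Finite A T := Module.Finite.iff_fg.2 hT
  obtain ⟨c0, hc0⟩ := jf_exists_pow_torsion_bound π (T ⧸ (U.comap T.subtype))
  refine ⟨c0, fun μ hμ n hn => ?_⟩
  obtain ⟨a, ha, τ, hτ, rfl⟩ := Submodule.mem_sup.1 (h hμ)
  have h1 : π ^ n • τ ∈ U := by
    have := U.sub_mem hn (U.smul_mem (π ^ n) ha)
    rwa [smul_add, add_sub_cancel_left] at this
  have h2 : π ^ n • (Submodule.Quotient.mk (⟨τ, hτ⟩ : T) : T ⧸ (U.comap T.subtype)) = 0 := by
    rw [← Submodule.Quotient.mk_smul, Submodule.Quotient.mk_eq_zero]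
    exact h1
  have h3 := hc0 n _ h2
  rw [← Submodule.Quotient.mk_smul, Submodule.Quotient.mk_eq_zero] at h3
  have h4 : π ^ c0 • τ ∈ U := h3
  rw [smul_add]
  exact U.add_mem (U.smul_mem _ ha) h4

end Bound

section Gen

variable {A0 F : Type*} [CommRing A0] [CommRing F] [Algebra A0 F]

/-- The generator argument. -/
theorem fc_gen (x y : F) (hxy : x * y = 1) (M1 M2 M12 : Submodule A0 F)
    (hx1 : ∀ b ∈ M1, x * b ∈ M1) (hy2 : ∀ b ∈ M2, y * b ∈ M2)
    (h12 : ∀ μ ∈ M12, ∃ n : ℕ, x ^ n * μ ∈ M1)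
    (h1in2 : ∀ b ∈ M1, ∃ e : ℕ, y ^ e * b ∈ M2)
    (S : Finset F) (hS : ∀ b ∈ S, b ∈ M1)
    (hgen : ∀ z ∈ M1, z ∈ Submodule.span A0 {w : F | ∃ b ∈ S, ∃ j : ℕ, w = x ^ j * b}) :
    ∃ T : Submodule A0 F, T.FG ∧ M12 ≤ (M1 ⊔ M2) ⊔ T := by
  classical
  have hx1' : ∀ (k : ℕ), ∀ b ∈ M1, x ^ k * b ∈ M1 := by
    intro k
    induction k with
    | zero => intro b hb; simpa using hb
    | succ k ih => intro b hb; rw [pow_succ', mul_assoc]; exact hx1 _ (ih b hb)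
  have hy2' : ∀ (k : ℕ), ∀ b ∈ M2, y ^ k * b ∈ M2 := by
    intro k
    induction k with
    | zero => intro b hb; simpa using hb
    | succ k ih => intro b hb; rw [pow_succ', mul_assoc]; exact hy2 _ (ih b hb)
  choose! ε hε using h1in2
  set e : ℕ := S.sup ε with he
  have hεe : ∀ b ∈ S, y ^ e * b ∈ M2 := by
    intro b hb
    have hle : ε b ≤ e := Finset.le_sup hb
    obtain ⟨k, hk⟩ := Nat.exists_eq_add_of_le hle
    rw [hk, add_comm, pow_add, mul_assoc]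
    exact hy2' k _ (hε b (hS b hb))
  set T : Submodule A0 F :=
    Submodule.span A0 ((S ×ˢ Finset.range e).image fun p => y ^ p.2 * p.1 : Finset F) with hT
  refine ⟨T, Submodule.fg_span (Finset.finite_toSet _), ?_⟩
  have hxyk : ∀ k : ℕ, y ^ k * x ^ k = 1 := fun k => by rw [← mul_pow, mul_comm, hxy, one_pow]
  -- the key claim on generators
  have key : ∀ b ∈ S, ∀ j n : ℕ, y ^ n * (x ^ j * b) ∈ (M1 ⊔ M2) ⊔ T := by
    intro b hb j n
    rcases le_or_gt n j with hnj | hnj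
    · obtain ⟨k, rfl⟩ := Nat.exists_eq_add_of_le hnj
      have : y ^ n * (x ^ (n + k) * b) = x ^ k * b := by
        rw [pow_add, ← mul_assoc, ← mul_assoc, hxyk, one_mul]
      rw [this]
      exact Submodule.mem_sup_left (Submodule.mem_sup_left (hx1' k b (hS b hb)))
    · obtain ⟨k, rfl⟩ := Nat.exists_eq_add_of_le hnj.le
      have : y ^ (j + k) * (x ^ j * b) = y ^ k * b := by
        rw [pow_add, mul_comm (y ^ j) (y ^ k), mul_assoc, ← mul_assoc (y ^ j), hxyk, one_mul]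
      rw [this]
      rcases lt_or_ge k e with hk | hk
      · refine Submodule.mem_sup_right (Submodule.subset_span ?_)
        rw [Finset.coe_image]
        exact ⟨(b, k), by simp [hb, hk], rfl⟩
      · obtain ⟨i, rfl⟩ := Nat.exists_eq_add_of_le hk
        rw [add_comm, pow_add, mul_assoc]
        exact Submodule.mem_sup_left (Submodule.mem_sup_right (hy2' i _ (hεe b hb)))
  intro μ hμ
  obtain ⟨n, hn⟩ := h12 μ hμ
  have hle : Submodule.span A0 {w : F | ∃ b ∈ S, ∃ j : ℕ, w = x ^ j * b} ≤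
      Submodule.comap (LinearMap.mulLeft A0 (y ^ n)) ((M1 ⊔ M2) ⊔ T) := by
    refine Submodule.span_le.2 ?_
    rintro w ⟨b, hb, j, rfl⟩
    exact key b hb j n
  have := hle (hgen _ hn)
  rw [Submodule.mem_comap, LinearMap.mulLeft_apply, ← mul_assoc, hxyk, one_mul] at this
  exact this

/-- **Torsion bound for `H¹`.** -/
theorem fc_hbound [IsNoetherianRing A0] (π : A0) (x y : F) (hxy : x * y = 1)
    (M1 M2 M12 : Submodule A0 F)
    (hx1 : ∀ b ∈ M1, x * b ∈ M1) (hy2 : ∀ b ∈ M2, y * b ∈ M2)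
    (h12 : ∀ μ ∈ M12, ∃ n : ℕ, x ^ n * μ ∈ M1)
    (h1in2 : ∀ b ∈ M1, ∃ e : ℕ, y ^ e * b ∈ M2)
    (S : Finset F) (hS : ∀ b ∈ S, b ∈ M1)
    (hgen : ∀ z ∈ M1, z ∈ Submodule.span A0 {w : F | ∃ b ∈ S, ∃ j : ℕ, w = x ^ j * b}) :
    ∃ c0 : ℕ, ∀ μ ∈ M12, ∀ n : ℕ, π ^ n • μ ∈ M1 ⊔ M2 → π ^ c0 • μ ∈ M1 ⊔ M2 := by
  obtain ⟨T, hT, hle⟩ := fc_gen x y hxy M1 M2 M12 hx1 hy2 h12 h1in2 S hS hgen
  exact fc_bound π (M1 ⊔ M2) M12 T hT hle

end Gen

end Fermat.Agent.JT3
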