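import Mathlib
import Fermat.Agent.JT3.FCore.Newton
import Fermat.Agent.JT3.FCore.H1Finite
import Fermat.Agent.JT3.FCore.Charts

/-!
# JT3 / F-core: the torsion bound `hbound` of `fcn_newton` for the charts

`I_c = {h | hᵐ f ∈ B_c}` as `A0`-submodules of `F0`; `I₁` is finitely generated over `A0[x]`
(it embeds into `a⁻¹ B₁` for `f = a / b`), and the generator argument `fc_hbound` applies.
-/

set_option autoImplicit false
set_option linter.unusedSectionVars false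

namespace Fermat.Agent.JT3

section H1Module

universe v

variable {A0 : Type*} [CommRing A0] {F0 : Type v} [Field F0] [Algebra A0 F0]

/-- `I = {h | hᵐ f ∈ B}` as an `A0`-submodule. -/
def fc_Isub (m : ℕ) (hm : m ≠ 0) (B : Subalgebra A0 F0) (f : F0)
    (hroot : ∀ z : F0, z ^ m ∈ B → z ∈ B) : Submodule A0 F0 where
  carrier := fcn_I m B f
  zero_mem' := by
    show (0 : F0) ^ m * f ∈ B
    rw [zero_pow hm, zero_mul]; exact B.zero_mem
  add_mem' := fun ha hb => fcn_I_add hroot ha hb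
  smul_mem' := fun a h hh => by
    rw [Algebra.smul_def]
    exact fcn_I_smul (B.algebraMap_mem a) hh

theorem fc_mem_Isub {m : ℕ} {hm : m ≠ 0} {B : Subalgebra A0 F0} {f : F0}
    {hroot : ∀ z : F0, z ^ m ∈ B → z ∈ B} {h : F0} :
    h ∈ fc_Isub m hm B f hroot ↔ h ^ m * f ∈ B := Iff.rfl

/-- Passing from `B₁₂` to `B₁` for sections. -/
theorem fc_Isub_clear {m : ℕ} (hm : m ≠ 0) {B B' : Subalgebra A0 F0} {f : F0} {s : F0}
    (hs : s ∈ B) (hclear : ∀ z ∈ B', ∃ k : ℕ, s ^ k * z ∈ B) {μ : F0} (hμ : μ ^ m * f ∈ B') :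
    ∃ n : ℕ, (s ^ n * μ) ^ m * f ∈ B := by
  obtain ⟨k, hk⟩ := hclear _ hμ
  refine ⟨k, ?_⟩
  obtain ⟨j, rfl⟩ := Nat.exists_eq_add_one_of_ne_zero hm
  have : (s ^ k * μ) ^ (j + 1) * f = (s ^ k) ^ j * (s ^ k * (μ ^ (j + 1) * f)) := by ring
  rw [this]
  exact B.mul_mem (B.pow_mem (B.pow_mem hs k) j) hk

/-- Finite generation in the form needed by `fc_gen`: a submodule `I` of `F0` stable under `x`,
contained in `a⁻¹ B` where `B ∋ x` is a finite module over `A0[x]`. -/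
theorem fc_exists_gen [IsNoetherianRing A0] (x : F0) (B : Subalgebra A0 F0)
    (hfin : (Subalgebra.toSubmodule (integralClosure (Algebra.adjoin A0 ({x} : Set F0)) F0)).FG)
    (hB : ∀ z, z ∈ B ↔ IsIntegral (Algebra.adjoin A0 ({x} : Set F0)) z)
    (I : Submodule A0 F0) (hxI : ∀ h ∈ I, x * h ∈ I) (a : F0) (ha : a ≠ 0)
    (hIa : ∀ h ∈ I, h * a ∈ B) :
    ∃ S : Finset F0, (∀ b ∈ S, b ∈ I) ∧
      ∀ z ∈ I, z ∈ Submodule.span A0 {w : F0 | ∃ b ∈ S, ∃ j : ℕ, w = x ^ j * b} := by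
  classical
  set R1 : Subalgebra A0 F0 := Algebra.adjoin A0 ({x} : Set F0) with hR1
  have hxR1 : x ∈ R1 := Algebra.subset_adjoin rfl
  -- `R1` is noetherian
  have hFT : Algebra.FiniteType A0 R1 := by
    rw [← Subalgebra.fg_iff_finiteType]
    exact ⟨{x}, by rw [Finset.coe_singleton]⟩
  have hR1N : IsNoetherianRing R1 := Algebra.FiniteType.isNoetherianRing A0 R1
  -- stability of `I` under `R1`
  have hRI : ∀ r ∈ R1, ∀ h ∈ I, r * h ∈ I := by
    intro r hr
    induction hr using Algebra.adjoin_induction with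
    | mem y hy =>
      rw [Set.mem_singleton_iff] at hy; subst hy
      exact hxI
    | algebraMap c =>
      intro h hh
      rw [← Algebra.smul_def]; exact I.smul_mem c hh
    | add r1 r2 _ _ h1 h2 =>
      intro h hh
      rw [add_mul]; exact I.add_mem (h1 h hh) (h2 h hh)
    | mul r1 r2 _ _ h1 h2 =>
      intro h hh
      rw [mul_assoc]; exact h1 _ (h2 h hh)
  -- `I` as an `R1`-submodule
  let I' : Submodule R1 F0 :=
    { carrier := I
      zero_mem' := I.zero_mem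
      add_mem' := I.add_mem
      smul_mem' := fun r h hh => by
        have : r • h = (r : F0) * h := rfl
        rw [this]
        exact hRI r r.2 h hh }
  set N : Submodule R1 F0 := Subalgebra.toSubmodule (integralClosure R1 F0) with hN
  set N' : Submodule R1 F0 := N.map (LinearMap.mulLeft R1 (a⁻¹ : F0)) with hN'
  have hN'fg : N'.FG := hfin.map _
  have hle : I' ≤ N' := by
    intro h hh
    refine ⟨h * a, ?_, ?_⟩
    · have h1 : h * a ∈ B := hIa h hh
      exact (hB _).1 h1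
    · rw [LinearMap.mulLeft_apply, mul_comm h a, ← mul_assoc, inv_mul_cancel₀ ha, one_mul]
  have hN'noeth : IsNoetherian R1 N' := isNoetherian_of_fg_of_noetherian N' hN'fg
  have hI'fg : I'.FG := isNoetherian_submodule.1 hN'noeth I' hle
  obtain ⟨S, hS⟩ := hI'fg
  refine ⟨S, fun b hb => ?_, ?_⟩
  · have : b ∈ I' := by rw [← hS]; exact Submodule.subset_span hb
    exact this
  -- the `A0`-span of the `x ^ j * b`
  set T : Submodule A0 F0 :=
    Submodule.span A0 {w : F0 | ∃ b ∈ S, ∃ j : ℕ, w = x ^ j * b} with hT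
  have hxT : ∀ t ∈ T, x * t ∈ T := by
    intro t ht
    induction ht using Submodule.span_induction with
    | mem w hw =>
      obtain ⟨b, hb, j, rfl⟩ := hw
      refine Submodule.subset_span ⟨b, hb, j + 1, ?_⟩
      rw [pow_succ']; ring
    | zero => rw [mul_zero]; exact T.zero_mem
    | add t1 t2 _ _ h1 h2 => rw [mul_add]; exact T.add_mem h1 h2
    | smul c t _ h1 =>
      rw [Algebra.smul_def, mul_left_comm, ← Algebra.smul_def]
      exact T.smul_mem c h1
  have hRT : ∀ r ∈ R1, ∀ t ∈ T, r * t ∈ T := by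
    intro r hr
    induction hr using Algebra.adjoin_induction with
    | mem y hy =>
      rw [Set.mem_singleton_iff] at hy; subst hy
      exact hxT
    | algebraMap c =>
      intro t ht
      rw [← Algebra.smul_def]; exact T.smul_mem c ht
    | add r1 r2 _ _ h1 h2 =>
      intro t ht
      rw [add_mul]; exact T.add_mem (h1 t ht) (h2 t ht)
    | mul r1 r2 _ _ h1 h2 =>
      intro t ht
      rw [mul_assoc]; exact h1 _ (h2 t ht)
  let T' : Submodule R1 F0 :=
    { carrier := T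
      zero_mem' := T.zero_mem
      add_mem' := T.add_mem
      smul_mem' := fun r t ht => by
        have : r • t = (r : F0) * t := rfl
        rw [this]
        exact hRT r r.2 t ht }
  have hST' : Submodule.span R1 (S : Set F0) ≤ T' := by
    refine Submodule.span_le.2 fun b hb => ?_
    have : b ∈ T := Submodule.subset_span ⟨b, hb, 0, by rw [pow_zero, one_mul]⟩
    exact this
  intro z hz
  have hz' : z ∈ I' := hz
  rw [← hS] at hz'
  exact hST' hz'

/-- **The torsion bound for the charts**, in the form consumed by `fcn_newton`. -/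
theorem fc_chart_hbound [IsNoetherianRing A0] (π : A0) {x : F0} (hx : x ≠ 0) (m : ℕ) (hm : m ≠ 0)
    (f : F0) (hf0 : f ≠ 0)
    (hfin : (Subalgebra.toSubmodule (integralClosure (Algebra.adjoin A0 ({x} : Set F0)) F0)).FG)
    (hfrac : ∃ a b : F0, a ∈ fc_chart A0 ({x} : Set F0) ∧ b ∈ fc_chart A0 ({x} : Set F0) ∧
      b ≠ 0 ∧ f * b = a) :
    ∃ c0 : ℕ, ∀ μ : F0, μ ^ m * f ∈ fc_chart A0 ({x, x⁻¹} : Set F0) → ∀ n : ℕ,
      (∃ a1 a2 : F0, a1 ^ m * f ∈ fc_chart A0 ({x} : Set F0) ∧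
        a2 ^ m * f ∈ fc_chart A0 ({x⁻¹} : Set F0) ∧ algebraMap A0 F0 π ^ n * μ = a1 + a2) →
      ∃ a1 a2 : F0, a1 ^ m * f ∈ fc_chart A0 ({x} : Set F0) ∧
        a2 ^ m * f ∈ fc_chart A0 ({x⁻¹} : Set F0) ∧ algebraMap A0 F0 π ^ c0 * μ = a1 + a2 := by
  set B1 := fc_chart A0 ({x} : Set F0) with hB1
  set B2 := fc_chart A0 ({x⁻¹} : Set F0) with hB2
  set B12 := fc_chart A0 ({x, x⁻¹} : Set F0) with hB12
  have hroot1 : ∀ z : F0, z ^ m ∈ B1 → z ∈ B1 := fun z => fc_chart_root hm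
  have hroot2 : ∀ z : F0, z ^ m ∈ B2 → z ∈ B2 := fun z => fc_chart_root hm
  have hroot12 : ∀ z : F0, z ^ m ∈ B12 → z ∈ B12 := fun z => fc_chart_root hm
  set M1 := fc_Isub m hm B1 f hroot1 with hM1
  set M2 := fc_Isub m hm B2 f hroot2 with hM2
  set M12 := fc_Isub m hm B12 f hroot12 with hM12
  have hxB1 : x ∈ B1 := fc_x_mem_chart x
  have hxB2 : x⁻¹ ∈ B2 := fc_x_mem_chart x⁻¹
  have hx1 : ∀ b ∈ M1, x * b ∈ M1 := fun b hb => fcn_I_smul hxB1 hb
  have hy2 : ∀ b ∈ M2, x⁻¹ * b ∈ M2 := fun b hb => fcn_I_smul hxB2 hb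
  have h12 : ∀ μ ∈ M12, ∃ n : ℕ, x ^ n * μ ∈ M1 := fun μ hμ =>
    fc_Isub_clear hm hxB1 (fun z hz => fc_clear1 hx hz) hμ
  have h1in2 : ∀ b ∈ M1, ∃ e : ℕ, x⁻¹ ^ e * b ∈ M2 := fun b hb =>
    fc_Isub_clear hm hxB2 (fun z hz => fc_clear2 hx hz) (fc_chart1_le x hb)
  obtain ⟨a, b, haB, hbB, hb0, hfab⟩ := hfrac
  have ha0 : a ≠ 0 := by rw [← hfab]; exact mul_ne_zero hf0 hb0
  have hIa : ∀ h ∈ M1, h * a ∈ B1 := by
    intro h hh
    apply hroot1
    obtain ⟨j, rfl⟩ := Nat.exists_eq_add_one_of_ne_zero hm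
    have : (h * a) ^ (j + 1) = (h ^ (j + 1) * f) * (b * a ^ j) := by
      rw [← hfab]; ring
    rw [this]
    exact B1.mul_mem hh (B1.mul_mem hbB (B1.pow_mem haB j))
  obtain ⟨S, hS, hgen⟩ := fc_exists_gen x B1 hfin (fun z => Iff.rfl) M1 hx1 a ha0 hIa
  obtain ⟨c0, hc0⟩ := fc_hbound π x x⁻¹ (mul_inv_cancel₀ hx) M1 M2 M12 hx1 hy2 h12 h1in2 S hS hgen
  refine ⟨c0, fun μ hμ n hn => ?_⟩
  have hsmul : ∀ k : ℕ, π ^ k • μ = algebraMap A0 F0 π ^ k * μ := fun k => by
    rw [Algebra.smul_def, map_pow]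
  have h1 : π ^ n • μ ∈ M1 ⊔ M2 := by
    obtain ⟨a1, a2, ha1, ha2, h⟩ := hn
    rw [hsmul, h]
    exact Submodule.add_mem_sup ha1 ha2
  have h2 := hc0 μ hμ n h1
  rw [hsmul] at h2
  obtain ⟨a1, ha1, a2, ha2, h⟩ := Submodule.mem_sup.1 h2
  exact ⟨a1, a2, ha1, ha2, h.symm⟩

end H1Module

end Fermat.Agent.JT3
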