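import Mathlib

/-!
# JT3 / F-core: the Gauss ring `O = B_(π)` of a chart, elementwise

`B` a domain with fraction field `F`, `π : B` prime.  `fc_gauss F hπ` is the localisation of `B`
at `(π)` as a subalgebra of `F`; `fc_piO F hπ` is the set `π O`.  We prove the elementwise facts
used by the Newton argument: `O` is local with maximal ideal `π O`, `π⁻¹ ∉ O`, `π O ∩ B = π B`
(saturation), `O` is closed under `m`-th roots when `B` is, comparison of the Gauss rings of two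
charts, and the module structure of `I = {h | hᵐ f ∈ B}`.
-/

set_option autoImplicit false
set_option linter.unusedSectionVars false

namespace Fermat.Agent.JT3

section Gauss

variable {B : Type*} [CommRing B] [IsDomain B]
  (F : Type*) [Field F] [Algebra B F] [IsFractionRing B F]

/-- The Gauss ring `B_(π)` inside the fraction field. -/
def fc_gauss {π : B} (hπ : Prime π) : Subalgebra B F where
  carrier := {z | ∃ a s : B, ¬ π ∣ s ∧ z * algebraMap B F s = algebraMap B F a}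
  mul_mem' := by
    rintro z1 z2 ⟨a1, s1, hs1, h1⟩ ⟨a2, s2, hs2, h2⟩
    refine ⟨a1 * a2, s1 * s2, fun h => (hπ.dvd_or_dvd h).elim hs1 hs2, ?_⟩
    rw [map_mul, map_mul, ← h1, ← h2]; ring
  add_mem' := by
    rintro z1 z2 ⟨a1, s1, hs1, h1⟩ ⟨a2, s2, hs2, h2⟩
    refine ⟨a1 * s2 + a2 * s1, s1 * s2, fun h => (hπ.dvd_or_dvd h).elim hs1 hs2, ?_⟩
    rw [map_mul, map_add, map_mul, map_mul, ← h1, ← h2]; ring
  algebraMap_mem' := fun b => ⟨b, 1, hπ.not_dvd_one, by rw [map_one, mul_one]⟩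

variable {F}
variable {π : B} (hπ : Prime π)

theorem fc_mem_gauss {z : F} :
    z ∈ fc_gauss F hπ ↔ ∃ a s : B, ¬ π ∣ s ∧ z * algebraMap B F s = algebraMap B F a := Iff.rfl

theorem fc_algebraMap_ne_zero {s : B} (hs : s ≠ 0) : algebraMap B F s ≠ 0 :=
  (map_ne_zero_iff _ (IsFractionRing.injective B F)).2 hs

theorem fc_ne_zero_of_not_dvd {s : B} (hs : ¬ π ∣ s) : algebraMap B F s ≠ 0 :=
  fc_algebraMap_ne_zero fun h => hs (h ▸ dvd_zero π)

/-- quotients with denominator prime to `π` lie in `O`. -/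
theorem fc_div_mem_gauss (a : B) {s : B} (hs : ¬ π ∣ s) :
    algebraMap B F a / algebraMap B F s ∈ fc_gauss F hπ :=
  ⟨a, s, hs, div_mul_cancel₀ _ (fc_ne_zero_of_not_dvd hs)⟩

/-- The set `π O`. -/
def fc_piO : Set F := {z | ∃ y ∈ fc_gauss F hπ, z = algebraMap B F π * y}

theorem fc_piO_zero : (0 : F) ∈ fc_piO hπ := ⟨0, zero_mem _, by rw [mul_zero]⟩

theorem fc_piO_add {z1 z2 : F} (h1 : z1 ∈ fc_piO hπ) (h2 : z2 ∈ fc_piO hπ) :
    z1 + z2 ∈ fc_piO hπ := by
  obtain ⟨y1, hy1, rfl⟩ := h1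
  obtain ⟨y2, hy2, rfl⟩ := h2
  exact ⟨y1 + y2, add_mem hy1 hy2, by ring⟩

theorem fc_piO_neg {z : F} (h : z ∈ fc_piO hπ) : -z ∈ fc_piO hπ := by
  obtain ⟨y, hy, rfl⟩ := h
  exact ⟨-y, neg_mem hy, by ring⟩

theorem fc_piO_sub {z1 z2 : F} (h1 : z1 ∈ fc_piO hπ) (h2 : z2 ∈ fc_piO hπ) :
    z1 - z2 ∈ fc_piO hπ := by
  rw [sub_eq_add_neg]; exact fc_piO_add hπ h1 (fc_piO_neg hπ h2)

theorem fc_piO_mul_left {o z : F} (ho : o ∈ fc_gauss F hπ) (h : z ∈ fc_piO hπ) :
    o * z ∈ fc_piO hπ := by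
  obtain ⟨y, hy, rfl⟩ := h
  exact ⟨o * y, mul_mem ho hy, by ring⟩

theorem fc_piO_mul_right {o z : F} (h : z ∈ fc_piO hπ) (ho : o ∈ fc_gauss F hπ) :
    z * o ∈ fc_piO hπ := by
  rw [mul_comm]; exact fc_piO_mul_left hπ ho h

theorem fc_piO_subset {z : F} (h : z ∈ fc_piO hπ) : z ∈ fc_gauss F hπ := by
  obtain ⟨y, hy, rfl⟩ := h
  exact mul_mem (Subalgebra.algebraMap_mem _ π) hy

/-- congruences modulo `π O` pass to powers. -/
theorem fc_piO_pow_sub {a b : F} (ha : a ∈ fc_gauss F hπ) (hb : b ∈ fc_gauss F hπ)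
    (h : a - b ∈ fc_piO hπ) (n : ℕ) : a ^ n - b ^ n ∈ fc_piO hπ := by
  rw [← Commute.geom_sum₂_mul (Commute.all a b) n]
  refine fc_piO_mul_left hπ ?_ h
  exact sum_mem fun i _ => mul_mem (pow_mem ha _) (pow_mem hb _)

/-- `π⁻¹ ∉ O`. -/
theorem fc_pi_inv_not_mem : (algebraMap B F π)⁻¹ ∉ fc_gauss F hπ := by
  rintro ⟨a, s, hs, h⟩
  have hπF : algebraMap B F π ≠ 0 := fc_algebraMap_ne_zero hπ.ne_zero
  apply hs
  refine ⟨a, ?_⟩
  apply IsFractionRing.injective B F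
  rw [map_mul, ← h, ← mul_assoc, mul_inv_cancel₀ hπF, one_mul]

theorem fc_one_not_mem_piO : (1 : F) ∉ fc_piO hπ := by
  rintro ⟨y, hy, h⟩
  have hπF : algebraMap B F π ≠ 0 := fc_algebraMap_ne_zero hπ.ne_zero
  apply fc_pi_inv_not_mem (F := F) hπ
  have : y = (algebraMap B F π)⁻¹ := eq_inv_of_mul_eq_one_right h.symm
  rwa [← this]

/-- `O` is local with maximal ideal `π O`. -/
theorem fc_gauss_local {z : F} (hz : z ∈ fc_gauss F hπ) :
    z ∈ fc_piO hπ ∨ z⁻¹ ∈ fc_gauss F hπ := by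
  obtain ⟨a, s, hs, h⟩ := hz
  have hsF : algebraMap B F s ≠ 0 := fc_ne_zero_of_not_dvd hs
  by_cases ha : π ∣ a
  · obtain ⟨a', rfl⟩ := ha
    left
    refine ⟨algebraMap B F a' / algebraMap B F s, fc_div_mem_gauss hπ a' hs, ?_⟩
    rw [map_mul] at h
    field_simp
    exact h
  · right
    have haF : algebraMap B F a ≠ 0 := fc_ne_zero_of_not_dvd ha
    have hz0 : z ≠ 0 := by
      rintro rfl
      rw [zero_mul] at h
      exact haF h.symm
    refine ⟨s, a, ha, ?_⟩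
    rw [← h]
    field_simp

/-- units of `O` congruent to `1`: `1 + π O ⊆ Oˣ`. -/
theorem fc_inv_mem_of_sub_one {z : F} (hz : z - 1 ∈ fc_piO hπ) : z⁻¹ ∈ fc_gauss F hπ := by
  have hzO : z ∈ fc_gauss F hπ := by
    have := add_mem (fc_piO_subset hπ hz) (one_mem (fc_gauss F hπ))
    rwa [sub_add_cancel] at this
  rcases fc_gauss_local hπ hzO with h | h
  · exfalso
    apply fc_one_not_mem_piO (F := F) hπ
    have := fc_piO_sub hπ h hz
    rwa [sub_sub_cancel] at this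
  · exact h

/-- saturation: `π O ∩ B = π B`. -/
theorem fc_gauss_sat {y : F} (hy : y ∈ fc_gauss F hπ) {b : B}
    (h : algebraMap B F π * y = algebraMap B F b) : ∃ b' : B, y = algebraMap B F b' := by
  obtain ⟨a, s, hs, h1⟩ := hy
  have hπF : algebraMap B F π ≠ 0 := fc_algebraMap_ne_zero hπ.ne_zero
  have heq : π * a = b * s := by
    apply IsFractionRing.injective B F
    rw [map_mul, map_mul, ← h1, ← h]; ring
  have hdvd : π ∣ b := (hπ.dvd_or_dvd ⟨a, heq.symm⟩).resolve_right hs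
  obtain ⟨b', rfl⟩ := hdvd
  refine ⟨b', ?_⟩
  rw [map_mul] at h
  exact mul_left_cancel₀ hπF h

/-- `O` is closed under `m`-th roots if `B` is. -/
theorem fc_gauss_root {m : ℕ} (hm : m ≠ 0)
    (hroot : ∀ z : F, (∃ r : B, z ^ m = algebraMap B F r) → ∃ r : B, z = algebraMap B F r)
    {z : F} (hz : z ^ m ∈ fc_gauss F hπ) : z ∈ fc_gauss F hπ := by
  obtain ⟨a, s, hs, h⟩ := hz
  obtain ⟨k, rfl⟩ := Nat.exists_eq_succ_of_ne_zero hm
  obtain ⟨r, hr⟩ := hroot (z * algebraMap B F s) ⟨s ^ k * a, by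
    rw [mul_pow, pow_succ (algebraMap B F s), ← mul_assoc, mul_assoc (z ^ (k + 1)), mul_comm _
      (algebraMap B F s), ← mul_assoc, h, map_mul, map_pow]; ring⟩
  exact ⟨r, s, hs, hr⟩

end Gauss

section Compare

variable {B B' : Type*} [CommRing B] [IsDomain B] [CommRing B'] [IsDomain B']
  {F : Type*} [Field F] [Algebra B F] [IsFractionRing B F] [Algebra B' F] [IsFractionRing B' F]
  (φ : B →+* B') (hφ : ∀ b : B, algebraMap B' F (φ b) = algebraMap B F b)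

include hφ in
/-- Comparison of Gauss rings: if every element of `B'` is a fraction of `B` with denominator
prime to `π`, then `O(B') ≤ O(B)`. -/
theorem fc_gauss_le {π : B} (hπ : Prime π) (hπ' : Prime (φ π))
    (hfrac : ∀ b' : B', ∃ a s : B, ¬ π ∣ s ∧ algebraMap B' F b' * algebraMap B F s = algebraMap B F a)
    {z : F} (hz : z ∈ fc_gauss F hπ') : z ∈ fc_gauss F hπ := by
  obtain ⟨a', s', hs', h⟩ := hz
  obtain ⟨a1, t1, ht1, h1⟩ := hfrac a'
  obtain ⟨a2, t2, ht2, h2⟩ := hfrac s'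
  have ha2 : ¬ π ∣ a2 := by
    intro hd
    apply hs'
    have heq : s' * φ t2 = φ a2 := by
      apply IsFractionRing.injective B' F
      rw [map_mul, hφ, hφ]
      exact h2
    have hd' : φ π ∣ s' * φ t2 := by
      rw [heq]; exact map_dvd _ hd
    rcases hπ'.dvd_or_dvd hd' with h3 | h3
    · exact h3
    · exfalso
      obtain ⟨c, hc⟩ := h3
      obtain ⟨a3, t3, ht3, h4⟩ := hfrac c
      have : t2 * t3 = π * a3 := by
        apply IsFractionRing.injective B F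
        rw [map_mul, map_mul, ← h4]
        have := congrArg (algebraMap B' F) hc
        rw [map_mul, hφ, hφ] at this
        rw [this]; ring
      exact (hπ.dvd_or_dvd ⟨a3, this⟩).elim ht2 ht3
  refine ⟨a1 * t2, a2 * t1, fun hd => (hπ.dvd_or_dvd hd).elim ha2 ht1, ?_⟩
  have ht1F : algebraMap B F t1 ≠ 0 := fc_ne_zero_of_not_dvd ht1
  have ht2F : algebraMap B F t2 ≠ 0 := fc_ne_zero_of_not_dvd ht2
  rw [map_mul, map_mul, ← h1, ← h2, ← h]
  ring

include hφ in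
/-- The easy comparison: if divisibility by `π` of elements of `B` can be tested in `B'`, then
`O(B) ≤ O(B')`. -/
theorem fc_gauss_ge {π : B} (hπ : Prime π) (hπ' : Prime (φ π))
    (hdvd : ∀ s : B, φ π ∣ φ s → π ∣ s) {z : F} (hz : z ∈ fc_gauss F hπ) :
    z ∈ fc_gauss F hπ' := by
  obtain ⟨a, s, hs, h⟩ := hz
  exact ⟨φ a, φ s, fun hd => hs (hdvd s hd), by rw [hφ, hφ]; exact h⟩

include hφ in
theorem fc_piO_le {π : B} (hπ : Prime π) (hπ' : Prime (φ π))
    (hfrac : ∀ b' : B', ∃ a s : B, ¬ π ∣ s ∧ algebraMap B' F b' * algebraMap B F s = algebraMap B F a)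
    {z : F} (hz : z ∈ fc_piO hπ') : z ∈ fc_piO hπ := by
  obtain ⟨y, hy, rfl⟩ := hz
  exact ⟨y, fc_gauss_le φ hφ hπ hπ' hfrac hy, by rw [hφ]⟩

include hφ in
theorem fc_piO_ge {π : B} (hπ : Prime π) (hπ' : Prime (φ π))
    (hdvd : ∀ s : B, φ π ∣ φ s → π ∣ s) {z : F} (hz : z ∈ fc_piO hπ) :
    z ∈ fc_piO hπ' := by
  obtain ⟨y, hy, rfl⟩ := hz
  exact ⟨y, fc_gauss_ge φ hφ hπ hπ' hdvd hy, by rw [hφ]⟩

end Compare

end Fermat.Agent.JT3
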