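import Mathlib
import Fermat.Agent.JT3.Algebra.NormalFree

/-!
# JT3 / F-core: the local ring of a regular surface point is a UFD; factorisation; DVRs at primes

* `fc_ufd`: a noetherian local domain with `𝔪 = (π, u)`, `π` prime, is a UFD (Nakayama + Kaplansky).
* `fc_factor`: in a UFD `R`, an `f ∈ Frac R` which at every prime element `q` is a `q`-unit times
  an `m`-th power is a unit of `R` times an `m`-th power.
* `fc_locAt`, `fc_locAt_isDVR`, `fc_locAt_unit`: the localisation at a principal prime as a
  subalgebra of the fraction field is a DVR; description of its units.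
-/

set_option autoImplicit false
set_option linter.unusedSectionVars false

namespace Fermat.Agent.JT3


open IsLocalRing

section UFD

variable {R : Type*} [CommRing R] [IsDomain R] [IsLocalRing R] [IsNoetherianRing R]

/-- A noetherian local domain whose maximal ideal is `(π, u)` with `π` prime is a UFD
(every prime ideal not containing `π` is principal, by Nakayama; then Kaplansky). -/
theorem fc_ufd {π u : R} (hπ : Prime π) (hmax : maximalIdeal R = Ideal.span {π, u}) :
    UniqueFactorizationMonoid R := by
  have hPID : IsPrincipalIdealRing (R ⧸ Ideal.span {π}) := nfr_isPrincipalIdealRing_quot hπ hmax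
  have hπm : π ∈ maximalIdeal R := by rw [hmax]; exact Ideal.subset_span (by simp)
  refine UniqueFactorizationMonoid.iff_exists_prime_mem_of_isPrime.2 fun P hP0 hPprime => ?_
  by_cases hπP : π ∈ P
  · exact ⟨π, hπP, hπ⟩
  -- the image of `P` modulo `π` is principal
  set mk := Ideal.Quotient.mk (Ideal.span {π}) with hmk
  have hsurj : Function.Surjective mk := Ideal.Quotient.mk_surjective
  obtain ⟨gbar, hgbar⟩ := (IsPrincipalIdealRing.principal (P.map mk)).principal
  have hgmem : gbar ∈ P.map mk := by rw [hgbar]; exact Submodule.mem_span_singleton_self _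
  obtain ⟨g, hgP, rfl⟩ := (Ideal.mem_map_iff_of_surjective mk hsurj).1 hgmem
  -- `P ≤ (g) ⊔ π P`
  have hle : P ≤ Ideal.span {g} ⊔ Ideal.span {π} • P := by
    intro a ha
    have h1 : mk a ∈ P.map mk := Ideal.mem_map_of_mem mk ha
    rw [hgbar] at h1
    obtain ⟨rbar, hr⟩ := Submodule.mem_span_singleton.1 h1
    obtain ⟨r, rfl⟩ := hsurj rbar
    have h2 : mk (a - r * g) = 0 := by
      rw [map_sub, map_mul, ← hr, smul_eq_mul, sub_self]
    rw [hmk, Ideal.Quotient.eq_zero_iff_mem, Ideal.mem_span_singleton] at h2
    obtain ⟨b, hb⟩ := h2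
    have hbP : b ∈ P := by
      have : π * b ∈ P := by
        rw [← hb]; exact P.sub_mem ha (P.mul_mem_left r hgP)
      exact (hPprime.mem_or_mem this).resolve_left hπP
    have : a = r * g + π * b := by rw [← hb]; ring
    rw [this]
    refine Submodule.add_mem_sup (Ideal.mul_mem_left _ r (Ideal.subset_span rfl)) ?_
    exact Submodule.smul_mem_smul (Ideal.subset_span rfl) hbP
  have hjac : Ideal.span {π} ≤ Ideal.jacobson (⊥ : Ideal R) := by
    rw [Ideal.span_le, Set.singleton_subset_iff]
    exact IsLocalRing.maximalIdeal_le_jacobson _ hπm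
  have hPg : P ≤ Ideal.span {g} :=
    Submodule.le_of_le_smul_of_le_jacobson_bot (IsNoetherian.noetherian P) hjac hle
  have hPeq : P = Ideal.span {g} :=
    le_antisymm hPg ((Ideal.span_singleton_le_iff_mem P).2 hgP)
  have hg0 : g ≠ 0 := by
    rintro rfl
    apply hP0
    rw [hPeq]
    simp
  refine ⟨g, hgP, ?_⟩
  rw [← Ideal.span_singleton_prime hg0, ← hPeq]
  exact hPprime

end UFD



open UniqueFactorizationMonoid

section Factor

variable {R : Type*} [CommRing R] [IsDomain R] [UniqueFactorizationMonoid R]

/-- An element all of whose prime factors occur with multiplicity divisible by `m` is a unit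
times an `m`-th power. -/
theorem fc_eq_unit_mul_pow [NormalizationMonoid R] [DecidableEq R] (m : ℕ) (a : R) (ha : a ≠ 0)
    (h : ∀ q ∈ normalizedFactors a, m ∣ (normalizedFactors a).count q) :
    ∃ (w : Rˣ) (c : R), a = w * c ^ m := by
  obtain ⟨u, hu⟩ := Multiset.exists_smul_of_dvd_count _ h
  have h1 : Associated (normalizedFactors a).prod a := prod_normalizedFactors ha
  rw [hu, Multiset.prod_nsmul] at h1
  obtain ⟨w, hw⟩ := h1
  exact ⟨w, u.prod, by rw [← hw, mul_comm]⟩

variable {F : Type*} [Field F] [Algebra R F] [IsFractionRing R F]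

/-- **Factorisation in a UFD.**  If `f ∈ Frac R` is, at every prime element `q`, a `q`-unit times
an `m`-th power, then `f` is a unit of `R` times an `m`-th power. -/
theorem fc_factor (m : ℕ) (hm : m ≠ 0) (f : F) (hf : f ≠ 0)
    (h : ∀ q : R, Prime q → ∃ (G : F) (a b : R), ¬ q ∣ a ∧ ¬ q ∣ b ∧
      f * algebraMap R F b = algebraMap R F a * G ^ m) :
    ∃ (w : Rˣ) (G : F), f = algebraMap R F w * G ^ m := by
  classical
  let _ : StrongNormalizationMonoid R := UniqueFactorizationMonoid.strongNormalizationMonoid
  have hinj : Function.Injective (algebraMap R F) := IsFractionRing.injective R F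
  obtain ⟨a, ⟨b, hb⟩, hrel, hfab⟩ := IsFractionRing.exists_reduced_fraction R f
  have hb0 : b ≠ 0 := nonZeroDivisors.ne_zero hb
  have hbF : algebraMap R F b ≠ 0 := (map_ne_zero_iff _ hinj).2 hb0
  have hfab' : f * algebraMap R F b = algebraMap R F a := by
    rw [← hfab]; exact IsLocalization.mk'_spec F a ⟨b, hb⟩
  have ha0 : a ≠ 0 := by
    rintro rfl
    rw [map_zero] at hfab'
    exact hf ((mul_eq_zero.1 hfab').resolve_right hbF)
  have hdisj : Disjoint (normalizedFactors a) (normalizedFactors b) :=
    disjoint_normalizedFactors hrel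
  -- the key divisibility
  have key : ∀ q : R, Prime q →
      ((normalizedFactors b).count q = 0 → m ∣ (normalizedFactors a).count q) ∧
      ((normalizedFactors a).count q = 0 → m ∣ (normalizedFactors b).count q) := by
    intro q hq
    obtain ⟨G, a', b', ha', hb', hG⟩ := h q hq
    have ha'0 : a' ≠ 0 := fun h0 => ha' (h0 ▸ dvd_zero q)
    have hb'0 : b' ≠ 0 := fun h0 => hb' (h0 ▸ dvd_zero q)
    have hb'F : algebraMap R F b' ≠ 0 := (map_ne_zero_iff _ hinj).2 hb'0
    obtain ⟨c, d, hd, hcd⟩ := IsFractionRing.div_surjective (A := R) G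
    have hd0 : d ≠ 0 := nonZeroDivisors.ne_zero hd
    have hdF : algebraMap R F d ≠ 0 := (map_ne_zero_iff _ hinj).2 hd0
    have hG0 : G ≠ 0 := by
      rintro rfl
      rw [zero_pow hm, mul_zero] at hG
      exact (mul_ne_zero hf hb'F) hG
    have hc0 : c ≠ 0 := by
      rintro rfl
      rw [map_zero, zero_div] at hcd
      exact hG0 hcd.symm
    -- the equation in `R`
    have heq : a * b' * d ^ m = a' * c ^ m * b := by
      apply hinj
      simp only [map_mul, map_pow]
      have h1 : algebraMap R F c = G * algebraMap R F d := by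
        rw [← hcd, div_mul_cancel₀ _ hdF]
      rw [← hfab', h1]
      linear_combination (algebraMap R F b * algebraMap R F d ^ m) * hG
    have hNF := congrArg normalizedFactors heq
    rw [normalizedFactors_mul (mul_ne_zero ha0 hb'0) (pow_ne_zero m hd0),
      normalizedFactors_mul ha0 hb'0, normalizedFactors_pow,
      normalizedFactors_mul (mul_ne_zero ha'0 (pow_ne_zero m hc0)) hb0,
      normalizedFactors_mul ha'0 (pow_ne_zero m hc0), normalizedFactors_pow] at hNF
    have hcnt := congrArg (Multiset.count q) hNF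
    simp only [Multiset.count_add, Multiset.count_nsmul] at hcnt
    have hza : (normalizedFactors a').count q = 0 :=
      Multiset.count_eq_zero.2 fun hmem => ha' (dvd_of_mem_normalizedFactors hmem)
    have hzb : (normalizedFactors b').count q = 0 :=
      Multiset.count_eq_zero.2 fun hmem => hb' (dvd_of_mem_normalizedFactors hmem)
    rw [hza, hzb, add_zero, zero_add] at hcnt
    constructor
    · intro hb0'
      rw [hb0', add_zero] at hcnt
      exact (Nat.dvd_add_left (dvd_mul_right m _)).1 ⟨_, hcnt⟩
    · intro ha0'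
      rw [ha0', zero_add] at hcnt
      exact (Nat.dvd_add_right (dvd_mul_right m _)).1 ⟨_, hcnt.symm⟩
  -- both `a` and `b` are units times `m`-th powers
  have hA : ∀ q ∈ normalizedFactors a, m ∣ (normalizedFactors a).count q := by
    intro q hq
    refine (key q (prime_of_normalized_factor q hq)).1 ?_
    exact Multiset.count_eq_zero.2 fun hmem => Multiset.disjoint_left.1 hdisj hq hmem
  have hB : ∀ q ∈ normalizedFactors b, m ∣ (normalizedFactors b).count q := by
    intro q hq
    refine (key q (prime_of_normalized_factor q hq)).2 ?_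
    exact Multiset.count_eq_zero.2 fun hmem => Multiset.disjoint_left.1 hdisj hmem hq
  obtain ⟨wa, ca, hca⟩ := fc_eq_unit_mul_pow m a ha0 hA
  obtain ⟨wb, cb, hcb⟩ := fc_eq_unit_mul_pow m b hb0 hB
  have hcb0 : cb ≠ 0 := by
    rintro rfl
    rw [zero_pow hm, mul_zero] at hcb
    exact hb0 hcb
  have hcbF : algebraMap R F cb ≠ 0 := (map_ne_zero_iff _ hinj).2 hcb0
  have hwbF : algebraMap R F (wb : R) ≠ 0 := (map_ne_zero_iff _ hinj).2 wb.ne_zero
  refine ⟨wa * wb⁻¹, algebraMap R F ca / algebraMap R F cb, ?_⟩
  have h2 : f * algebraMap R F b = algebraMap R F a := hfab'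
  rw [hca, hcb, map_mul, map_mul, map_pow, map_pow] at h2
  have h3 : algebraMap R F ((wb⁻¹ : Rˣ) : R) * algebraMap R F (wb : R) = 1 := by
    rw [← map_mul, ← Units.val_mul, inv_mul_cancel, Units.val_one, map_one]
  rw [Units.val_mul, map_mul, div_pow]
  field_simp
  linear_combination (algebraMap R F ((wb⁻¹ : Rˣ) : R)) * h2 -
    (f * algebraMap R F cb ^ m) * h3

end Factor



section DVRAtPrime

variable {R : Type*} [CommRing R] [IsDomain R]
  (F : Type*) [Field F] [Algebra R F] [IsFractionRing R F]

/-- The localisation of `R` at a prime ideal, as a subalgebra of the fraction field. -/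
noncomputable def fc_locAt (P : Ideal R) [P.IsPrime] : Subalgebra R F :=
  Localization.subalgebra.ofField F P.primeCompl P.primeCompl_le_nonZeroDivisors

instance fc_locAt_isLocalization (P : Ideal R) [P.IsPrime] :
    IsLocalization.AtPrime (fc_locAt F P) P :=
  Localization.subalgebra.isLocalization_ofField F P.primeCompl P.primeCompl_le_nonZeroDivisors

theorem fc_mem_locAt (P : Ideal R) [P.IsPrime] (z : F) :
    z ∈ fc_locAt F P ↔ ∃ a s : R, s ∉ P ∧ z * algebraMap R F s = algebraMap R F a := by
  have hinj : Function.Injective (algebraMap R F) := IsFractionRing.injective R F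
  constructor
  · rintro ⟨a, s, hs, rfl⟩
    refine ⟨a, s, hs, ?_⟩
    have hs0 : algebraMap R F s ≠ 0 := by
      refine (map_ne_zero_iff _ hinj).2 ?_
      rintro rfl
      exact hs P.zero_mem
    rw [mul_assoc, inv_mul_cancel₀ hs0, mul_one]
  · rintro ⟨a, s, hs, h⟩
    refine ⟨a, s, hs, ?_⟩
    have hs0 : algebraMap R F s ≠ 0 := by
      refine (map_ne_zero_iff _ hinj).2 ?_
      rintro rfl
      exact hs P.zero_mem
    rw [← h, mul_assoc, mul_inv_cancel₀ hs0, mul_one]

/-- The localisation of a noetherian domain at a principal prime `(q)` is a DVR. -/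
theorem fc_locAt_isDVR [IsNoetherianRing R] {q : R} (hq : Prime q)
    [hP : (Ideal.span {q} : Ideal R).IsPrime] :
    IsDiscreteValuationRing (fc_locAt F (Ideal.span {q})) := by
  set P : Ideal R := Ideal.span {q} with hPdef
  set S := fc_locAt F P with hS
  have hloc : IsLocalRing S := IsLocalization.AtPrime.isLocalRing S P
  have hnoeth : IsNoetherianRing S := IsLocalization.isNoetherianRing P.primeCompl S inferInstance
  have hmax : maximalIdeal S = Ideal.span {algebraMap R S q} := by
    rw [← IsLocalization.AtPrime.map_eq_maximalIdeal P S, hPdef, Ideal.map_span,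
      Set.image_singleton]
  have hprin : (maximalIdeal S).IsPrincipal := ⟨⟨_, hmax⟩⟩
  have hPIR : IsPrincipalIdealRing S :=
    ((tfae_of_isNoetherianRing_of_isLocalRing_of_isDomain S).out 4 0).1 hprin
  have hinj : Function.Injective (algebraMap R S) :=
    IsLocalization.injective S P.primeCompl_le_nonZeroDivisors
  refine { not_a_field' := ?_ }
  rw [hmax, Ne, Ideal.span_singleton_eq_bot]
  exact (map_ne_zero_iff _ hinj).2 hq.ne_zero

/-- Units of the localisation at `(q)` are quotients of elements prime to `q`. -/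
theorem fc_locAt_unit {q : R} (hq : Prime q) [hP : (Ideal.span {q} : Ideal R).IsPrime]
    (w : (fc_locAt F (Ideal.span {q}))ˣ) :
    ∃ a b : R, ¬ q ∣ a ∧ ¬ q ∣ b ∧
      algebraMap (fc_locAt F (Ideal.span {q})) F w * algebraMap R F b = algebraMap R F a := by
  have hinj : Function.Injective (algebraMap R F) := IsFractionRing.injective R F
  obtain ⟨a, s, hs, h1⟩ := (fc_mem_locAt F (Ideal.span {q}) _).1 (w : fc_locAt F _).2
  obtain ⟨a', s', hs', h2⟩ := (fc_mem_locAt F (Ideal.span {q}) _).1
    ((w⁻¹ : (fc_locAt F (Ideal.span {q}))ˣ) : fc_locAt F _).2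
  rw [Ideal.mem_span_singleton] at hs hs'
  refine ⟨a, s, ?_, hs, h1⟩
  -- `a * a' = s * s'`
  have h3 : ((w : fc_locAt F (Ideal.span {q})) : F) *
      (((w⁻¹ : (fc_locAt F (Ideal.span {q}))ˣ) : fc_locAt F (Ideal.span {q})) : F) = 1 := by
    rw [← Subalgebra.coe_mul, ← Units.val_mul, mul_inv_cancel, Units.val_one, Subalgebra.coe_one]
  have h4 : a * a' = s * s' := by
    apply hinj
    rw [map_mul, map_mul, ← h1, ← h2]
    linear_combination (algebraMap R F s * algebraMap R F s') * h3
  intro hqa
  have : q ∣ s * s' := h4 ▸ Dvd.dvd.mul_right hqa a'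
  rcases hq.dvd_or_dvd this with h | h
  · exact hs h
  · exact hs' h

end DVRAtPrime

end Fermat.Agent.JT3
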