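import Mathlib
import Fermat.Agent.JT3.FCore.Gauss
import Fermat.Agent.JT3.FCore.LocalUFD

/-!
# JT3 / F-core: the local Kummer step (STEP 1 of the Newton route)

Local form: `R` a noetherian local domain with `𝔪 = (π, u)`, `π` prime, `O = R_(π)`.
If `f ≡ 1 mod π O` and `f = w Gᵐ` with `w ∈ Rˣ`, then `h := G⁻¹` satisfies `hᵐ f = w ∈ R` and
`h ≡ ρ mod π O` for a unit `ρ` of `R` (`fc_local_step`): the residue ring `R ⧸ π` is a valuation
ring.
-/

set_option autoImplicit false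
set_option linter.unusedSectionVars false

namespace Fermat.Agent.JT3

open IsLocalRing

section Local

variable {R : Type*} [CommRing R] [IsDomain R] [IsLocalRing R] [IsNoetherianRing R]
  {F : Type*} [Field F] [Algebra R F] [IsFractionRing R F]
  {π u : R} (hπ : Prime π) (hmax : maximalIdeal R = Ideal.span {π, u})

include hmax in
theorem fc_pi_mem_maximalIdeal : π ∈ maximalIdeal R := by
  rw [hmax]; exact Ideal.subset_span (by simp)

include hmax in
/-- one half of the valuation-ring argument. -/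
theorem fc_local_aux (m : ℕ) (hm : m ≠ 0) {z : F} (hz : z ∈ fc_gauss F hπ) {α β : R}
    (hβ : ¬ π ∣ β) (hzβ : z * algebraMap R F β = algebraMap R F α)
    (hdvd : Ideal.Quotient.mk (Ideal.span {π}) β ∣ Ideal.Quotient.mk (Ideal.span {π}) α)
    (w : Rˣ) (hzw : z ^ m - algebraMap R F w ∈ fc_piO hπ) :
    ∃ ρ : Rˣ, z - algebraMap R F ρ ∈ fc_piO hπ := by
  have hπm : π ∈ maximalIdeal R := fc_pi_mem_maximalIdeal hmax
  obtain ⟨rbar, hr⟩ := hdvd
  obtain ⟨r, rfl⟩ := Ideal.Quotient.mk_surjective rbar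
  have h0 : Ideal.Quotient.mk (Ideal.span {π}) (α - β * r) = 0 := by
    rw [map_sub, map_mul, hr, sub_self]
  rw [Ideal.Quotient.eq_zero_iff_mem, Ideal.mem_span_singleton] at h0
  obtain ⟨r', hr'⟩ := h0
  have hβF : algebraMap R F β ≠ 0 := fc_ne_zero_of_not_dvd hβ
  have hzr : z - algebraMap R F r ∈ fc_piO hπ := by
    refine ⟨algebraMap R F r' / algebraMap R F β, fc_div_mem_gauss hπ r' hβ, ?_⟩
    have h1 : algebraMap R F α - algebraMap R F β * algebraMap R F r =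
        algebraMap R F π * algebraMap R F r' := by
      rw [← map_mul, ← map_mul, ← map_sub, hr']
    field_simp
    linear_combination hzβ + h1
  have hrO : algebraMap R F r ∈ fc_gauss F hπ := Subalgebra.algebraMap_mem _ r
  have hrunit : IsUnit r := by
    by_contra hnu
    have hrm : r ∈ maximalIdeal R := (IsLocalRing.mem_maximalIdeal r).2 hnu
    have h2 : z ^ m - algebraMap R F r ^ m ∈ fc_piO hπ := fc_piO_pow_sub hπ hz hrO hzr m
    have h3 : algebraMap R F r ^ m - algebraMap R F w ∈ fc_piO hπ := by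
      have := fc_piO_sub hπ hzw h2
      rwa [sub_sub_sub_cancel_left] at this
    obtain ⟨y, hy, h4⟩ := h3
    have h5 : algebraMap R F π * y = algebraMap R F (r ^ m - w) := by
      rw [← h4, map_sub, map_pow]
    obtain ⟨b', hb'⟩ := fc_gauss_sat hπ hy h5
    have h6 : r ^ m - w = π * b' := by
      apply IsFractionRing.injective R F
      rw [← h5, hb', map_mul]
    have hwm : (w : R) ∈ maximalIdeal R := by
      have : (w : R) = r ^ m - π * b' := by rw [← h6]; ring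
      rw [this]
      exact Ideal.sub_mem _ (Ideal.pow_mem_of_mem _ hrm m (Nat.pos_of_ne_zero hm))
        (Ideal.mul_mem_right _ _ hπm)
    exact (IsLocalRing.mem_maximalIdeal _).1 hwm w.isUnit
  exact ⟨hrunit.unit, by rw [IsUnit.unit_spec]; exact hzr⟩

include hmax in
/-- A unit `z` of `O` whose `m`-th power is congruent to a unit of `R` is congruent to a unit of
`R` (modulo `π O`). -/
theorem fc_local_unit_cong (m : ℕ) (hm : m ≠ 0) {z : F} (hz0 : z ≠ 0) (hz : z ∈ fc_gauss F hπ)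
    (hz' : z⁻¹ ∈ fc_gauss F hπ) (w : Rˣ) (hzw : z ^ m - algebraMap R F w ∈ fc_piO hπ) :
    ∃ ρ : Rˣ, z - algebraMap R F ρ ∈ fc_piO hπ := by
  have hinj : Function.Injective (algebraMap R F) := IsFractionRing.injective R F
  obtain ⟨α, β, hβ, hzβ⟩ := hz
  obtain ⟨α', β', hβ', hzβ'⟩ := hz'
  have hαα' : α * α' = β * β' := by
    apply hinj
    rw [map_mul, map_mul, ← hzβ, ← hzβ']
    field_simp
  have hα : ¬ π ∣ α := fun hd =>
    (hπ.dvd_or_dvd (hαα' ▸ Dvd.dvd.mul_right hd α')).elim hβ hβ'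
  have hPID : IsPrincipalIdealRing (R ⧸ Ideal.span {π}) := nfr_isPrincipalIdealRing_quot hπ hmax
  have hprime : (Ideal.span {π}).IsPrime := (Ideal.span_singleton_prime hπ.ne_zero).2 hπ
  have hdom : IsDomain (R ⧸ Ideal.span {π}) := Ideal.Quotient.isDomain _
  have hloc : IsLocalRing (R ⧸ Ideal.span {π}) :=
    IsLocalRing.of_surjective' (Ideal.Quotient.mk _) Ideal.Quotient.mk_surjective
  have hVR : ValuationRing (R ⧸ Ideal.span {π}) := inferInstance
  rcases ValuationRing.dvd_total (Ideal.Quotient.mk (Ideal.span {π}) β)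
    (Ideal.Quotient.mk (Ideal.span {π}) α) with hd | hd
  · exact fc_local_aux hπ hmax m hm ⟨α, β, hβ, hzβ⟩ hβ hzβ hd w hzw
  · -- work with `z⁻¹`
    have hαF : algebraMap R F α ≠ 0 := fc_ne_zero_of_not_dvd hα
    have hzα : z⁻¹ * algebraMap R F α = algebraMap R F β := by
      rw [← hzβ]; field_simp
    have hwinv : algebraMap R F ((w⁻¹ : Rˣ) : R) * algebraMap R F (w : R) = 1 := by
      rw [← map_mul, ← Units.val_mul, inv_mul_cancel, Units.val_one, map_one]
    have hzO : z ∈ fc_gauss F hπ := ⟨α, β, hβ, hzβ⟩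
    have hzinvO : z⁻¹ ∈ fc_gauss F hπ := ⟨α', β', hβ', hzβ'⟩
    have hzw' : z⁻¹ ^ m - algebraMap R F ((w⁻¹ : Rˣ) : R) ∈ fc_piO hπ := by
      have h1 : z⁻¹ ^ m - algebraMap R F ((w⁻¹ : Rˣ) : R) =
          (-(z⁻¹ ^ m * algebraMap R F ((w⁻¹ : Rˣ) : R))) * (z ^ m - algebraMap R F w) := by
        have hzz : z⁻¹ ^ m * z ^ m = 1 := by rw [← mul_pow, inv_mul_cancel₀ hz0, one_pow]
        linear_combination (-(z⁻¹ ^ m)) * hwinv + (algebraMap R F ((w⁻¹ : Rˣ) : R)) * hzz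
      rw [h1]
      refine fc_piO_mul_left hπ (neg_mem (mul_mem (pow_mem hzinvO m) ?_)) hzw
      exact Subalgebra.algebraMap_mem _ _
    obtain ⟨ρ', hρ'⟩ := fc_local_aux hπ hmax m hm hzinvO hα hzα hd w⁻¹ hzw'
    refine ⟨ρ'⁻¹, ?_⟩
    have hρinv : algebraMap R F ((ρ'⁻¹ : Rˣ) : R) * algebraMap R F (ρ' : R) = 1 := by
      rw [← map_mul, ← Units.val_mul, inv_mul_cancel, Units.val_one, map_one]
    have h2 : z - algebraMap R F ((ρ'⁻¹ : Rˣ) : R) =
        (-(z * algebraMap R F ((ρ'⁻¹ : Rˣ) : R))) * (z⁻¹ - algebraMap R F ρ') := by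
      have hzz : z * z⁻¹ = 1 := mul_inv_cancel₀ hz0
      linear_combination (-z) * hρinv + (algebraMap R F ((ρ'⁻¹ : Rˣ) : R)) * hzz
    rw [h2]
    refine fc_piO_mul_left hπ (neg_mem (mul_mem hzO ?_)) hρ'
    exact Subalgebra.algebraMap_mem _ _

include hmax in
/-- **Local Kummer step.** -/
theorem fc_local_step (m : ℕ) (hm : m ≠ 0) (f : F) (hf1 : f - 1 ∈ fc_piO hπ) (w : Rˣ) (G : F)
    (hfG : f = algebraMap R F w * G ^ m) :
    ∃ (ρ : Rˣ) (h : F), h ^ m * f = algebraMap R F w ∧ h - algebraMap R F ρ ∈ fc_piO hπ := by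
  have hUFD : UniqueFactorizationMonoid R := fc_ufd hπ hmax
  have hIC : IsIntegrallyClosed R := inferInstance
  have hroot : ∀ z : F, (∃ r : R, z ^ m = algebraMap R F r) → ∃ r : R, z = algebraMap R F r := by
    rintro z ⟨r, hr⟩
    have hint : IsIntegral R z := by
      refine IsIntegral.of_pow (Nat.pos_of_ne_zero hm) ?_
      rw [hr]; exact isIntegral_algebraMap
    obtain ⟨y, hy⟩ := IsIntegrallyClosed.isIntegral_iff.1 hint
    exact ⟨y, hy.symm⟩
  have hfO : f ∈ fc_gauss F hπ := by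
    have := add_mem (fc_piO_subset hπ hf1) (one_mem (fc_gauss F hπ))
    rwa [sub_add_cancel] at this
  have hfinvO : f⁻¹ ∈ fc_gauss F hπ := fc_inv_mem_of_sub_one hπ hf1
  have hf0 : f ≠ 0 := by
    rintro rfl
    apply fc_one_not_mem_piO (F := F) hπ
    have := fc_piO_neg hπ hf1
    rwa [zero_sub, neg_neg] at this
  have hwF : algebraMap R F (w : R) ≠ 0 :=
    (map_ne_zero_iff _ (IsFractionRing.injective R F)).2 w.ne_zero
  have hG0 : G ≠ 0 := by
    rintro rfl
    rw [zero_pow hm, mul_zero] at hfG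
    exact hf0 hfG
  have hwinv : algebraMap R F ((w⁻¹ : Rˣ) : R) * algebraMap R F (w : R) = 1 := by
    rw [← map_mul, ← Units.val_mul, inv_mul_cancel, Units.val_one, map_one]
  have hGm : G ^ m = f * algebraMap R F ((w⁻¹ : Rˣ) : R) := by
    rw [hfG]; linear_combination (-(G ^ m)) * hwinv
  have hGO : G ∈ fc_gauss F hπ := by
    refine fc_gauss_root hπ hm hroot ?_
    rw [hGm]
    exact mul_mem hfO (Subalgebra.algebraMap_mem _ _)
  have hGinvm : G⁻¹ ^ m = algebraMap R F w * f⁻¹ := by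
    have hW' : algebraMap R F ((w⁻¹ : Rˣ) : R) = (algebraMap R F (w : R))⁻¹ :=
      eq_inv_of_mul_eq_one_left hwinv
    rw [inv_pow, hGm, hW', mul_inv, inv_inv, mul_comm]
  have hGinvO : G⁻¹ ∈ fc_gauss F hπ := by
    refine fc_gauss_root hπ hm hroot ?_
    rw [hGinvm]
    exact mul_mem (Subalgebra.algebraMap_mem _ _) hfinvO
  have hzw : G⁻¹ ^ m - algebraMap R F w ∈ fc_piO hπ := by
    have h1 : G⁻¹ ^ m - algebraMap R F w = (-(algebraMap R F w * f⁻¹)) * (f - 1) := by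
      rw [hGinvm]
      have : f⁻¹ * f = 1 := inv_mul_cancel₀ hf0
      linear_combination (algebraMap R F (w : R)) * this
    rw [h1]
    exact fc_piO_mul_left hπ (neg_mem (mul_mem (Subalgebra.algebraMap_mem _ _) hfinvO)) hf1
  obtain ⟨ρ, hρ⟩ := fc_local_unit_cong hπ hmax m hm (inv_ne_zero hG0)
    hGinvO (by rwa [inv_inv]) w hzw
  refine ⟨ρ, G⁻¹, ?_, hρ⟩
  rw [hGinvm, mul_assoc, inv_mul_cancel₀ hf0, mul_one]

end Local

section Chart

universe v

variable {B : Type v} [CommRing B] [IsDomain B]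
  {F : Type v} [Field F] [Algebra B F] [IsFractionRing B F]

/-- Hypothesis **(h4b)** relative to a chart `B`: at every DVR of `F` containing `B[1/π]`,
`f` is a unit times an `m`-th power. -/
def fc_H4b (π : B) (m : ℕ) (f : F) : Prop :=
  ∀ (O' : Type v) [CommRing O'] [IsDomain O'] [IsDiscreteValuationRing O'] [Algebra O' F]
    [IsFractionRing O' F],
    (∀ b : B, algebraMap B F b ∈ (algebraMap O' F).range) →
    (algebraMap B F π)⁻¹ ∈ (algebraMap O' F).range →
    ∃ (w : O'ˣ) (G : F), f = algebraMap O' F w * G ^ m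

variable {π : B} (hπ : Prime π) (𝔫 : Ideal B) [h𝔫 : 𝔫.IsPrime] (hπ𝔫 : π ∈ 𝔫)

theorem fc_loc_algebraMap (b : B) :
    algebraMap (fc_locAt F 𝔫) F (algebraMap B (fc_locAt F 𝔫) b) = algebraMap B F b := rfl

include hπ hπ𝔫 in
/-- divisibility by `π` descends from the local ring. -/
theorem fc_loc_dvd {a : B} (h : algebraMap B (fc_locAt F 𝔫) π ∣ algebraMap B (fc_locAt F 𝔫) a) :
    π ∣ a := by
  obtain ⟨r, hr⟩ := h
  obtain ⟨c, t, ht, hrt⟩ := (fc_mem_locAt F 𝔫 _).1 r.2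
  have heq : π * c = a * t := by
    apply IsFractionRing.injective B F
    have h1 := congrArg (algebraMap (fc_locAt F 𝔫) F) hr
    rw [map_mul, fc_loc_algebraMap, fc_loc_algebraMap] at h1
    rw [map_mul, map_mul, h1, ← hrt]
    change algebraMap B F π * ((r : F) * algebraMap B F t) = algebraMap B F π * (r : F) * _
    ring
  refine (hπ.dvd_or_dvd ⟨c, heq.symm⟩).resolve_right fun hd => ht ?_
  obtain ⟨t', rfl⟩ := hd
  exact 𝔫.mul_mem_right _ hπ𝔫

include hπ hπ𝔫 in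
theorem fc_loc_prime : Prime (algebraMap B (fc_locAt F 𝔫) π) := by
  have hprime : (Ideal.span {π}).IsPrime := (Ideal.span_singleton_prime hπ.ne_zero).2 hπ
  have hdisj : Disjoint (𝔫.primeCompl : Set B) (Ideal.span {π} : Ideal B) := by
    rw [Set.disjoint_left]
    intro x hx hx'
    apply hx
    obtain ⟨c, rfl⟩ := Ideal.mem_span_singleton.1 hx'
    exact 𝔫.mul_mem_right _ hπ𝔫
  have h1 := IsLocalization.isPrime_of_isPrime_disjoint 𝔫.primeCompl (fc_locAt F 𝔫)
    (Ideal.span {π}) hprime hdisj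
  rw [Ideal.map_span, Set.image_singleton] at h1
  have hne : algebraMap B (fc_locAt F 𝔫) π ≠ 0 := by
    intro h0
    have := congrArg (algebraMap (fc_locAt F 𝔫) F) h0
    rw [fc_loc_algebraMap, map_zero] at this
    exact fc_algebraMap_ne_zero hπ.ne_zero this
  exact (Ideal.span_singleton_prime hne).1 h1

include hπ𝔫 in
/-- `π O(B) ⊆ π O(B_𝔫)`. -/
theorem fc_piO_to_loc (hπR : Prime (algebraMap B (fc_locAt F 𝔫) π)) {z : F}
    (hz : z ∈ fc_piO hπ) : z ∈ fc_piO hπR :=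
  fc_piO_ge (algebraMap B (fc_locAt F 𝔫)) (fun _ => rfl) hπ hπR
    (fun _ hd => fc_loc_dvd hπ 𝔫 hπ𝔫 hd) hz

include hπ𝔫 in
/-- `π O(B_𝔫) ⊆ π O(B)`. -/
theorem fc_piO_of_loc (hπR : Prime (algebraMap B (fc_locAt F 𝔫) π)) {z : F}
    (hz : z ∈ fc_piO hπR) : z ∈ fc_piO hπ := by
  refine fc_piO_le (algebraMap B (fc_locAt F 𝔫)) (fun _ => rfl) hπ hπR ?_ hz
  intro r
  obtain ⟨c, t, ht, hrt⟩ := (fc_mem_locAt F 𝔫 _).1 r.2
  refine ⟨c, t, fun hd => ht ?_, hrt⟩
  obtain ⟨t', rfl⟩ := hd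
  exact 𝔫.mul_mem_right _ hπ𝔫

include hπ𝔫 in
/-- **STEP 1, local form on a chart.**  `𝔫` a prime ideal of the noetherian domain `B` containing the
prime `π` and locally generated by `π, u`; `f ≡ 1 mod π O`; `(h4b)`.  Then there are `b₁ ∉ 𝔫` and `h` with
`hᵐ f ∈ B` and `h ≡ b₁ mod π O`. -/
theorem fc_step1_local [IsNoetherianRing B] (u : B) (hu : u ∈ 𝔫)
    (hgen : ∀ z ∈ 𝔫, ∃ s : B, s ∉ 𝔫 ∧ s * z ∈ Ideal.span {π, u})
    (m : ℕ) (hm : m ≠ 0) (f : F) (hf1 : f - 1 ∈ fc_piO hπ)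
    (h4b : fc_H4b π m f) :
    ∃ (b1 : B) (h : F), b1 ∉ 𝔫 ∧ (∃ r : B, h ^ m * f = algebraMap B F r) ∧
      h - algebraMap B F b1 ∈ fc_piO hπ := by
  have hinj : Function.Injective (algebraMap B F) := IsFractionRing.injective B F
  set R : Subalgebra B F := fc_locAt F 𝔫 with hR
  have hlocR : IsLocalRing R := IsLocalization.AtPrime.isLocalRing R 𝔫
  have hnoeR : IsNoetherianRing R := IsLocalization.isNoetherianRing 𝔫.primeCompl R inferInstance
  have hπR : Prime (algebraMap B R π) := fc_loc_prime hπ 𝔫 hπ𝔫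
  have hmaxR : IsLocalRing.maximalIdeal R =
      Ideal.span {algebraMap B R π, algebraMap B R u} := by
    rw [← IsLocalization.AtPrime.map_eq_maximalIdeal 𝔫 R]
    apply le_antisymm
    · rw [Ideal.map_le_iff_le_comap]
      intro z hz
      obtain ⟨s, hs, hsz⟩ := hgen z hz
      have h1 : algebraMap B R (s * z) ∈ Ideal.span {algebraMap B R π, algebraMap B R u} := by
        have := Ideal.mem_map_of_mem (algebraMap B R) hsz
        rwa [Ideal.map_span, Set.image_pair] at this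
      have h3 : IsUnit (algebraMap B R s) := (IsLocalization.AtPrime.isUnit_to_map_iff R 𝔫 s).2 hs
      rw [Ideal.mem_comap]
      rw [map_mul] at h1
      exact (Ideal.unit_mul_mem_iff_mem _ h3).1 h1
    · rw [Ideal.span_le]
      rintro y (rfl | rfl)
      · exact Ideal.mem_map_of_mem _ hπ𝔫
      · exact Ideal.mem_map_of_mem _ hu
  have hf1R : f - 1 ∈ fc_piO hπR := fc_piO_to_loc hπ 𝔫 hπ𝔫 hπR hf1
  -- `f ≠ 0`
  have hf0 : f ≠ 0 := by
    rintro rfl
    apply fc_one_not_mem_piO (F := F) hπ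
    have := fc_piO_neg hπ hf1
    rwa [zero_sub, neg_neg] at this
  -- `f` is a `π`-unit
  obtain ⟨y, ⟨a0, s0, hs0, hy⟩, hfy⟩ := hf1
  have hfs0 : f * algebraMap B F s0 = algebraMap B F (s0 + π * a0) := by
    rw [map_add, map_mul, ← hy]
    linear_combination (algebraMap B F s0) * hfy
  have hnum : ¬ π ∣ s0 + π * a0 := fun hd =>
    hs0 ((dvd_add_left (dvd_mul_right π a0)).1 hd)
  -- the hypothesis of `fc_factor`
  have hfac : ∀ q : R, Prime q → ∃ (G : F) (a b : R), ¬ q ∣ a ∧ ¬ q ∣ b ∧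
      f * algebraMap R F b = algebraMap R F a * G ^ m := by
    intro q hq
    by_cases hass : Associated q (algebraMap B R π)
    · refine ⟨1, algebraMap B R (s0 + π * a0), algebraMap B R s0, ?_, ?_, ?_⟩
      · intro hd
        exact hnum (fc_loc_dvd hπ 𝔫 hπ𝔫 ((hass.dvd_iff_dvd_left).1 hd))
      · intro hd
        exact hs0 (fc_loc_dvd hπ 𝔫 hπ𝔫 ((hass.dvd_iff_dvd_left).1 hd))
      · rw [one_pow, mul_one, fc_loc_algebraMap, fc_loc_algebraMap]
        exact hfs0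
    · have hPq : (Ideal.span {q} : Ideal R).IsPrime :=
        (Ideal.span_singleton_prime hq.ne_zero).2 hq
      have hDVR : IsDiscreteValuationRing (fc_locAt F (Ideal.span {q})) := fc_locAt_isDVR F hq
      have hπq : algebraMap B R π ∉ (Ideal.span {q} : Ideal R) := by
        rw [Ideal.mem_span_singleton]
        intro hd
        exact hass (hq.associated_of_dvd hπR hd)
      obtain ⟨w, G, hwG⟩ := h4b (fc_locAt F (Ideal.span {q}))
        (fun b => ⟨⟨algebraMap B F b, Subalgebra.algebraMap_mem _ (algebraMap B R b)⟩, rfl⟩)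
        ⟨⟨(algebraMap B F π)⁻¹, (fc_mem_locAt F (Ideal.span {q}) _).2
          ⟨1, algebraMap B R π, hπq, by
            rw [fc_loc_algebraMap, map_one,
              inv_mul_cancel₀ (fc_algebraMap_ne_zero hπ.ne_zero)]⟩⟩, rfl⟩
      obtain ⟨a, b, ha, hb, hab⟩ := fc_locAt_unit F hq w
      refine ⟨G, a, b, ha, hb, ?_⟩
      rw [hwG, ← hab]; ring
  have hUFD : UniqueFactorizationMonoid R := fc_ufd hπR hmaxR
  obtain ⟨w, G, hwG⟩ := fc_factor m hm f hf0 hfac
  obtain ⟨ρ, h, hhf, hhρ⟩ := fc_local_step hπR hmaxR m hm f hf1R w G hwG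
  -- descent to `B`
  obtain ⟨b1, b2, hb2, hρb⟩ := (fc_mem_locAt F 𝔫 _).1 (ρ : R).2
  obtain ⟨a1, s1, hs1, hwa⟩ := (fc_mem_locAt F 𝔫 _).1 (w : R).2
  have hb1 : b1 ∉ 𝔫 := by
    intro hb1
    have h1 : algebraMap B R b1 ∈ IsLocalRing.maximalIdeal R :=
      (IsLocalization.AtPrime.to_map_mem_maximal_iff R 𝔫 b1 hlocR).2 hb1
    have h2 : (ρ : R) * algebraMap B R b2 = algebraMap B R b1 := Subtype.ext hρb
    have h3 : IsUnit (algebraMap B R b2) := (IsLocalization.AtPrime.isUnit_to_map_iff R 𝔫 b2).2 hb2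
    rw [← h2] at h1
    exact (IsLocalRing.mem_maximalIdeal _).1 h1 (ρ.isUnit.mul h3)
  refine ⟨s1 * b1, algebraMap B F (s1 * b2) * h, fun hmem => ?_, ?_, ?_⟩
  · exact (h𝔫.mem_or_mem hmem).elim hs1 hb1
  · obtain ⟨k, rfl⟩ := Nat.exists_eq_add_one_of_ne_zero hm
    refine ⟨s1 ^ k * b2 ^ (k + 1) * a1, ?_⟩
    have hcoe : algebraMap R F (w : R) = ((w : R) : F) := rfl
    rw [mul_pow, mul_assoc, hhf, map_mul, map_mul, map_mul, map_pow, map_pow, ← hwa, hcoe]
    ring
  · have h1 : algebraMap B F (s1 * b2) * h - algebraMap B F (s1 * b1) =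
        algebraMap B F (s1 * b2) * (h - algebraMap R F ρ) := by
      have hcoe : algebraMap R F (ρ : R) = ((ρ : R) : F) := rfl
      rw [map_mul, map_mul, ← hρb, hcoe]
      ring
    rw [h1]
    exact fc_piO_mul_left hπ (Subalgebra.algebraMap_mem _ _) (fc_piO_of_loc hπ 𝔫 hπ𝔫 hπR hhρ)

end Chart

section Glue

universe v

variable {B : Type v} [CommRing B] [IsDomain B]
  {F : Type v} [Field F] [Algebra B F] [IsFractionRing B F]

/-- Fact (i): `I = {h | hᵐ f ∈ B}` is closed under addition when `B` is closed under `m`-th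
roots in `F`. -/
theorem fc_I_add (m : ℕ) (f : F)
    (hroot : ∀ z : F, (∃ r : B, z ^ m = algebraMap B F r) → ∃ r : B, z = algebraMap B F r)
    {h1 h2 : F} (H1 : ∃ r : B, h1 ^ m * f = algebraMap B F r)
    (H2 : ∃ r : B, h2 ^ m * f = algebraMap B F r) :
    ∃ r : B, (h1 + h2) ^ m * f = algebraMap B F r := by
  obtain ⟨r1, hr1⟩ := H1
  obtain ⟨r2, hr2⟩ := H2
  have hmem : (h1 + h2) ^ m * f ∈ (algebraMap B F).range := by
    rw [add_pow, Finset.sum_mul]
    refine Subring.sum_mem _ fun k hk => ?_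
    have hk' : k ≤ m := Nat.lt_succ_iff.1 (Finset.mem_range.1 hk)
    have hT : h1 ^ k * h2 ^ (m - k) * f ∈ (algebraMap B F).range := by
      obtain ⟨t, ht⟩ := hroot (h1 ^ k * h2 ^ (m - k) * f) ⟨r1 ^ k * r2 ^ (m - k), by
        rw [map_mul, map_pow, map_pow, ← hr1, ← hr2]
        have hfm : f ^ m = f ^ k * f ^ (m - k) := by rw [← pow_add, Nat.add_sub_cancel' hk']
        rw [mul_pow, mul_pow, hfm, mul_pow, mul_pow, ← pow_mul, ← pow_mul, ← pow_mul, ← pow_mul,
          mul_comm k m, mul_comm (m - k) m]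
        ring⟩
      exact ⟨t, ht.symm⟩
    have : h1 ^ k * h2 ^ (m - k) * (m.choose k : F) * f =
        (h1 ^ k * h2 ^ (m - k) * f) * (m.choose k : F) := by ring
    rw [this]
    exact Subring.mul_mem _ hT (natCast_mem _ _)
  obtain ⟨r, hr⟩ := hmem
  exact ⟨r, hr.symm⟩

/-- **STEP 1 on a chart.**  `B` a noetherian domain closed under `m`-th roots in its fraction
field `F`, `π` prime, every maximal ideal containing `π` locally of the form `(π, u)`, `f ≡ 1 mod π O`,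
`(h4b)`.  Then there is `h` with `hᵐ f ∈ B` and `h ≡ 1 mod π O`. -/
theorem fc_step1 [IsNoetherianRing B] {π : B} (hπ : Prime π) (m : ℕ) (hm : m ≠ 0) (f : F)
    (hroot : ∀ z : F, (∃ r : B, z ^ m = algebraMap B F r) → ∃ r : B, z = algebraMap B F r)
    (h3 : ∀ 𝔫 : Ideal B, 𝔫.IsMaximal → π ∈ 𝔫 →
      ∃ u ∈ 𝔫, ∀ z ∈ 𝔫, ∃ s : B, s ∉ 𝔫 ∧ s * z ∈ Ideal.span {π, u})
    (hf1 : f - 1 ∈ fc_piO hπ) (h4b : fc_H4b π m f) :
    ∃ h : F, (∃ r : B, h ^ m * f = algebraMap B F r) ∧ h - 1 ∈ fc_piO hπ := by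
  let J : Ideal B :=
    { carrier := {b | ∃ h : F, (∃ r : B, h ^ m * f = algebraMap B F r) ∧
        h - algebraMap B F b ∈ fc_piO hπ}
      zero_mem' := ⟨0, ⟨0, by rw [zero_pow hm, zero_mul, map_zero]⟩, by
        rw [map_zero, sub_zero]; exact fc_piO_zero hπ⟩
      add_mem' := by
        rintro b b' ⟨h, H, hb⟩ ⟨h', H', hb'⟩
        refine ⟨h + h', fc_I_add m f hroot H H', ?_⟩
        have : h + h' - algebraMap B F (b + b') =
            (h - algebraMap B F b) + (h' - algebraMap B F b') := by rw [map_add]; ring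
        rw [this]
        exact fc_piO_add hπ hb hb'
      smul_mem' := by
        rintro c b ⟨h, ⟨r, hr⟩, hb⟩
        refine ⟨algebraMap B F c * h, ⟨c ^ m * r, ?_⟩, ?_⟩
        · rw [mul_pow, mul_assoc, hr, map_mul, map_pow]
        · have : algebraMap B F c * h - algebraMap B F (c • b) =
              algebraMap B F c * (h - algebraMap B F b) := by
            rw [smul_eq_mul, map_mul]; ring
          rw [this]
          exact fc_piO_mul_left hπ (Subalgebra.algebraMap_mem _ c) hb }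
  have hJ : ∀ b : B, b ∈ J ↔ ∃ h : F, (∃ r : B, h ^ m * f = algebraMap B F r) ∧
      h - algebraMap B F b ∈ fc_piO hπ := fun b => Iff.rfl
  have hJtop : J = ⊤ := by
    by_contra hne
    obtain ⟨𝔫, h𝔫max, hJ𝔫⟩ := Ideal.exists_le_maximal J hne
    by_cases hπ𝔫 : π ∈ 𝔫
    · obtain ⟨u, hu, hgen⟩ := h3 𝔫 h𝔫max hπ𝔫
      have : 𝔫.IsPrime := h𝔫max.isPrime
      obtain ⟨b1, h, hb1, H, hb⟩ := fc_step1_local hπ 𝔫 hπ𝔫 u hu hgen m hm f hf1 h4b
      exact hb1 (hJ𝔫 ((hJ b1).2 ⟨h, H, hb⟩))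
    · apply hπ𝔫
      refine hJ𝔫 ((hJ π).2 ⟨0, ⟨0, by rw [zero_pow hm, zero_mul, map_zero]⟩, ?_⟩)
      exact ⟨-1, neg_mem (one_mem _), by ring⟩
  have h1J : (1 : B) ∈ J := by rw [hJtop]; exact Submodule.mem_top
  obtain ⟨h, H, hb⟩ := (hJ 1).1 h1J
  rw [map_one] at hb
  exact ⟨h, H, hb⟩

end Glue

end Fermat.Agent.JT3
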