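import Mathlib
import Fermat.Agent.JT3.FCore.Newton
import Fermat.Agent.JT3.FCore.H1Module
import Fermat.Agent.JT3.FCore.LocalKummer

/-!
# JT3 / F-core: the main theorem (`fc_main`)

`A0` a noetherian domain, `π : A0`, `F0` a field over `A0`, `x ∈ F0ˣ`; charts
`B₁, B₂, B₁₂` = integral closures of `A0[x]`, `A0[x⁻¹]`, `A0[x, x⁻¹]` in `F0`.
Hypotheses: `B₁, B₂` finite over `A0[x]`, `A0[x⁻¹]`; `π` prime in the three charts (h2); every
maximal ideal of `B₁`, `B₂` containing `π` is locally `(π, u)` (h3); `f ≡ 1` modulo `π B₁₂,(π)` (h4a); at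
every DVR of `F0` containing `A0[1/π]`, `f` is a unit times an `m`-th power (h4b); `m` invertible
in `A0`; `B₁ ∩ B₂ = A0` (H⁰).  Conclusion: `f = c gᵐ` with `c ∈ A0`, `g ∈ F0ˣ`.

Proof (helper12's Newton route): STEP 1 on both charts (`fc_step1`), the torsion bound for
`H¹` of the `m`-th root module (`fc_chart_hbound`), and `fcn_newton`.
-/

set_option autoImplicit false
set_option linter.unusedSectionVars false

namespace Fermat.Agent.JT3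

section Compare

universe v

variable {A0 : Type*} [CommRing A0] {F0 : Type v} [Field F0] [Algebra A0 F0]
  (B B' : Subalgebra A0 F0) (hle : B ≤ B') [IsFractionRing B F0] [IsFractionRing B' F0] (π : A0)
  (hπ : Prime (algebraMap A0 B π)) (hπ' : Prime (algebraMap A0 B' π))
  (s : F0) (hs : s ∈ B) (hsinv : s⁻¹ ∈ B') (hs0 : s ≠ 0)
  (hclear : ∀ z ∈ B', ∃ k : ℕ, s ^ k * z ∈ B)

include hle hπ hπ' hsinv hs0 in
theorem fc_cmp_not_dvd (k : ℕ) : ¬ algebraMap A0 B π ∣ (⟨s, hs⟩ : B) ^ k := by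
  intro hd
  have hd1 : algebraMap A0 B π ∣ (⟨s, hs⟩ : B) := hπ.dvd_of_dvd_pow hd
  obtain ⟨c, hc⟩ := hd1
  apply hπ'.not_isUnit
  refine isUnit_iff_exists_inv.2 ⟨⟨(c : F0) * s⁻¹, B'.mul_mem (hle c.2) hsinv⟩, ?_⟩
  apply Subtype.ext
  have h1 : s = algebraMap A0 F0 π * (c : F0) := congrArg Subtype.val hc
  change algebraMap A0 F0 π * ((c : F0) * s⁻¹) = 1
  rw [← mul_assoc, ← h1, mul_inv_cancel₀ hs0]

include hle hπ hπ' hs hsinv hs0 hclear in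
theorem fc_cmp_dvd (t : B) (hd : algebraMap A0 B' π ∣ Subalgebra.inclusion hle t) :
    algebraMap A0 B π ∣ t := by
  obtain ⟨c', hc'⟩ := hd
  obtain ⟨k, hk⟩ := hclear c' c'.2
  have h1 : (t : F0) = algebraMap A0 F0 π * (c' : F0) := congrArg Subtype.val hc'
  have hd2 : algebraMap A0 B π ∣ (⟨s, hs⟩ : B) ^ k * t := by
    refine ⟨⟨s ^ k * c', hk⟩, ?_⟩
    apply Subtype.ext
    change s ^ k * (t : F0) = algebraMap A0 F0 π * (s ^ k * (c' : F0))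
    rw [h1]; ring
  exact (hπ.dvd_or_dvd hd2).resolve_left (fc_cmp_not_dvd B B' hle π hπ hπ' s hs hsinv hs0 k)

include hle hs hsinv hs0 hclear in
theorem fc_cmp_gauss_le {z : F0} (hz : z ∈ fc_gauss F0 hπ') : z ∈ fc_gauss F0 hπ := by
  refine fc_gauss_le (Subalgebra.inclusion hle).toRingHom (fun _ => rfl) hπ hπ' ?_ hz
  intro b'
  obtain ⟨k, hk⟩ := hclear b' b'.2
  refine ⟨⟨s ^ k * b', hk⟩, (⟨s, hs⟩ : B) ^ k,
    fc_cmp_not_dvd B B' hle π hπ hπ' s hs hsinv hs0 k, ?_⟩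
  change (b' : F0) * s ^ k = s ^ k * (b' : F0)
  ring

include hle hs hsinv hs0 hclear in
theorem fc_cmp_gauss_ge {z : F0} (hz : z ∈ fc_gauss F0 hπ) : z ∈ fc_gauss F0 hπ' :=
  fc_gauss_ge (Subalgebra.inclusion hle).toRingHom (fun _ => rfl) hπ hπ'
    (fun t hd => fc_cmp_dvd B B' hle π hπ hπ' s hs hsinv hs0 hclear t hd) hz

include hle hs hsinv hs0 hclear in
theorem fc_cmp_piO_le {z : F0} (hz : z ∈ fc_piO hπ') : z ∈ fc_piO hπ := by
  obtain ⟨y, hy, rfl⟩ := hz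
  exact ⟨y, fc_cmp_gauss_le B B' hle π hπ hπ' s hs hsinv hs0 hclear hy, rfl⟩

include hle hs hsinv hs0 hclear in
theorem fc_cmp_piO_ge {z : F0} (hz : z ∈ fc_piO hπ) : z ∈ fc_piO hπ' := by
  obtain ⟨y, hy, rfl⟩ := hz
  exact ⟨y, fc_cmp_gauss_ge B B' hle π hπ hπ' s hs hsinv hs0 hclear hy, rfl⟩

end Compare

section Main

universe v

variable {A0 : Type*} [CommRing A0] [IsDomain A0] [IsNoetherianRing A0]
  {F0 : Type v} [Field F0] [Algebra A0 F0]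

/-- Hypothesis **(h4b)**: at every DVR of `F0` containing `A0[1/π]`, `f` is a unit times an
`m`-th power. -/
def fc_H4 (π : A0) (m : ℕ) (f : F0) : Prop :=
  ∀ (O' : Type v) [CommRing O'] [IsDomain O'] [IsDiscreteValuationRing O'] [Algebra O' F0]
    [IsFractionRing O' F0],
    (∀ a : A0, algebraMap A0 F0 a ∈ (algebraMap O' F0).range) →
    (algebraMap A0 F0 π)⁻¹ ∈ (algebraMap O' F0).range →
    ∃ (w : O'ˣ) (G : F0), f = algebraMap O' F0 w * G ^ m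

omit [IsDomain A0] [IsNoetherianRing A0] in
theorem fc_H4b_of_H4 {π : A0} {m : ℕ} {f : F0} (h : fc_H4 π m f) (B : Subalgebra A0 F0) :
    fc_H4b (algebraMap A0 B π) m f := by
  intro O' _ _ _ _ _ hB hπ
  exact h O' (fun a => hB (algebraMap A0 B a)) hπ

/-- Noetherianity of a chart which is finite over its coordinate ring. -/
theorem fc_chart_isNoetherianRing (S : Finset F0)
    (hfin : Module.Finite (Algebra.adjoin A0 (S : Set F0))
      (integralClosure (Algebra.adjoin A0 (S : Set F0)) F0)) :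
    IsNoetherianRing (fc_chart A0 (S : Set F0)) := by
  have hFT : Algebra.FiniteType A0 (Algebra.adjoin A0 (S : Set F0)) := by
    rw [← Subalgebra.fg_iff_finiteType]
    exact ⟨S, rfl⟩
  have hN : IsNoetherianRing (Algebra.adjoin A0 (S : Set F0)) :=
    Algebra.FiniteType.isNoetherianRing A0 _
  have h1 : IsNoetherian (Algebra.adjoin A0 (S : Set F0))
      (integralClosure (Algebra.adjoin A0 (S : Set F0)) F0) :=
    isNoetherian_of_isNoetherianRing_of_finite _ _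
  change IsNoetherianRing (integralClosure (Algebra.adjoin A0 (S : Set F0)) F0)
  exact isNoetherian_of_tower (Algebra.adjoin A0 (S : Set F0)) h1

/-- **F-core, main theorem.** -/
theorem fc_main (π : A0) {x : F0} (hx : x ≠ 0) (m : ℕ) (hm : IsUnit (m : A0)) (f : F0)
    [Algebra.IsAlgebraic (Algebra.adjoin A0 ({x} : Set F0)) F0]
    [Algebra.IsAlgebraic (Algebra.adjoin A0 ({x⁻¹} : Set F0)) F0]
    [Algebra.IsAlgebraic (Algebra.adjoin A0 ({x, x⁻¹} : Set F0)) F0]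
    (hfin1 : Module.Finite (Algebra.adjoin A0 ({x} : Set F0))
      (integralClosure (Algebra.adjoin A0 ({x} : Set F0)) F0))
    (hfin2 : Module.Finite (Algebra.adjoin A0 ({x⁻¹} : Set F0))
      (integralClosure (Algebra.adjoin A0 ({x⁻¹} : Set F0)) F0))
    (hπ1 : Prime (algebraMap A0 (fc_chart A0 ({x} : Set F0)) π))
    (hπ2 : Prime (algebraMap A0 (fc_chart A0 ({x⁻¹} : Set F0)) π))
    (hπ12 : Prime (algebraMap A0 (fc_chart A0 ({x, x⁻¹} : Set F0)) π))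
    (h31 : ∀ 𝔫 : Ideal (fc_chart A0 ({x} : Set F0)), 𝔫.IsMaximal →
      algebraMap A0 (fc_chart A0 ({x} : Set F0)) π ∈ 𝔫 →
      ∃ u ∈ 𝔫, ∀ z ∈ 𝔫, ∃ s, s ∉ 𝔫 ∧
        s * z ∈ Ideal.span {algebraMap A0 (fc_chart A0 ({x} : Set F0)) π, u})
    (h32 : ∀ 𝔫 : Ideal (fc_chart A0 ({x⁻¹} : Set F0)), 𝔫.IsMaximal →
      algebraMap A0 (fc_chart A0 ({x⁻¹} : Set F0)) π ∈ 𝔫 →
      ∃ u ∈ 𝔫, ∀ z ∈ 𝔫, ∃ s, s ∉ 𝔫 ∧
        s * z ∈ Ideal.span {algebraMap A0 (fc_chart A0 ({x⁻¹} : Set F0)) π, u})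
    (h4a : f - 1 ∈ fc_piO hπ12) (h4b : fc_H4 π m f)
    (hH0 : ∀ z : F0, z ∈ fc_chart A0 ({x} : Set F0) → z ∈ fc_chart A0 ({x⁻¹} : Set F0) →
      z ∈ (algebraMap A0 F0).range) :
    ∃ (c : A0) (g : F0), g ≠ 0 ∧ f = algebraMap A0 F0 c * g ^ m := by
  classical
  set B1 := fc_chart A0 ({x} : Set F0) with hB1
  set B2 := fc_chart A0 ({x⁻¹} : Set F0) with hB2
  set B12 := fc_chart A0 ({x, x⁻¹} : Set F0) with hB12
  have hm0 : m ≠ 0 := by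
    rintro rfl
    rw [Nat.cast_zero] at hm
    exact not_isUnit_zero hm
  have hle1 : B1 ≤ B12 := fc_chart1_le x
  have hle2 : B2 ≤ B12 := fc_chart2_le x
  have hxB1 : x ∈ B1 := fc_x_mem_chart x
  have hxB2 : x⁻¹ ∈ B2 := fc_x_mem_chart x⁻¹
  have hxinv12 : x⁻¹ ∈ B12 := hle2 hxB2
  have hx12 : x ∈ B12 := hle1 hxB1
  have hroot1 : ∀ z : F0, z ^ m ∈ B1 → z ∈ B1 := fun z => fc_chart_root hm0
  have hroot2 : ∀ z : F0, z ^ m ∈ B2 → z ∈ B2 := fun z => fc_chart_root hm0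
  have hroot12 : ∀ z : F0, z ^ m ∈ B12 → z ∈ B12 := fun z => fc_chart_root hm0
  have hclear1 : ∀ z ∈ B12, ∃ k : ℕ, x ^ k * z ∈ B1 := fun z hz => fc_clear1 hx hz
  have hclear2 : ∀ z ∈ B12, ∃ k : ℕ, x⁻¹ ^ k * z ∈ B2 := fun z hz => fc_clear2 hx hz
  have hxinv0 : x⁻¹ ≠ 0 := inv_ne_zero hx
  have hxx : x⁻¹⁻¹ ∈ B12 := by rw [inv_inv]; exact hx12
  -- the Gauss ring
  set O : Subring F0 := (fc_gauss F0 hπ12).toSubring with hO
  have hmemO : ∀ z : F0, z ∈ O ↔ z ∈ fc_gauss F0 hπ12 := fun z => Iff.rfl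
  have hπF : ∀ (B : Subalgebra A0 F0), algebraMap B F0 (algebraMap A0 B π) = algebraMap A0 F0 π :=
    fun B => rfl
  have hpiO : ∀ z : F0, z ∈ fc_piO hπ12 ↔ ∃ y ∈ O, z = algebraMap A0 F0 π * y := fun z => Iff.rfl
  have hBO : ∀ z ∈ B12, z ∈ O := fun z hz =>
    Subalgebra.algebraMap_mem (fc_gauss F0 hπ12) (⟨z, hz⟩ : B12)
  have hloc : ∀ z ∈ O, (∃ y ∈ O, z = algebraMap A0 F0 π * y) ∨ z⁻¹ ∈ O := fun z hz =>
    (fc_gauss_local hπ12 hz).imp (fun h => (hpiO z).1 h) id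
  have hπO : (algebraMap A0 F0 π)⁻¹ ∉ O := fc_pi_inv_not_mem (F := F0) hπ12
  have hrootB : ∀ (B : Subalgebra A0 F0), (∀ z : F0, z ^ m ∈ B → z ∈ B) →
      ∀ z : F0, (∃ r : B, z ^ m = algebraMap B F0 r) → ∃ r : B, z = algebraMap B F0 r := by
    rintro B hB z ⟨r, hr⟩
    exact ⟨⟨z, hB z (hr ▸ r.2)⟩, rfl⟩
  have hrootO : ∀ z : F0, z ^ m ∈ O → z ∈ O := fun z hz =>
    fc_gauss_root hπ12 hm0 (hrootB B12 hroot12) hz
  -- saturation
  have hsatB : ∀ (B : Subalgebra A0 F0) [IsFractionRing B F0] (hπB : Prime (algebraMap A0 B π)),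
      ∀ y ∈ fc_gauss F0 hπB, algebraMap A0 F0 π * y ∈ B → y ∈ B := by
    intro B _ hπB y hy hmem
    obtain ⟨b', hb'⟩ := fc_gauss_sat hπB hy (b := ⟨_, hmem⟩) rfl
    rw [hb']; exact b'.2
  have hsat12 : ∀ y ∈ O, algebraMap A0 F0 π * y ∈ B12 → y ∈ B12 := fun y hy =>
    hsatB B12 hπ12 y hy
  have hsat1 : ∀ y ∈ O, algebraMap A0 F0 π * y ∈ B1 → y ∈ B1 := fun y hy =>
    hsatB B1 hπ1 y (fc_cmp_gauss_le B1 B12 hle1 π hπ1 hπ12 x hxB1 hxinv12 hx hclear1 hy)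
  have hsat2 : ∀ y ∈ O, algebraMap A0 F0 π * y ∈ B2 → y ∈ B2 := fun y hy =>
    hsatB B2 hπ2 y (fc_cmp_gauss_le B2 B12 hle2 π hπ2 hπ12 x⁻¹ hxB2 hxx hxinv0 hclear2 hy)
  -- `f ≡ 1`
  have hf : ∃ y ∈ O, f - 1 = algebraMap A0 F0 π * y := (hpiO _).1 h4a
  have hf0 : f ≠ 0 := by
    rintro rfl
    apply fc_one_not_mem_piO (F := F0) hπ12
    have := fc_piO_neg hπ12 h4a
    rwa [zero_sub, neg_neg] at this
  -- STEP 1 on both charts
  have hN1 : IsNoetherianRing B1 := by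
    have := fc_chart_isNoetherianRing (A0 := A0) (F0 := F0) {x} (by rwa [Finset.coe_singleton])
    rwa [Finset.coe_singleton] at this
  have hN2 : IsNoetherianRing B2 := by
    have := fc_chart_isNoetherianRing (A0 := A0) (F0 := F0) {x⁻¹} (by rwa [Finset.coe_singleton])
    rwa [Finset.coe_singleton] at this
  have hs1 : ∃ h : F0, h ^ m * f ∈ B1 ∧ ∃ y ∈ O, h - 1 = algebraMap A0 F0 π * y := by
    obtain ⟨h, ⟨r, hr⟩, hh⟩ := fc_step1 hπ1 m hm0 f (hrootB B1 hroot1) h31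
      (fc_cmp_piO_le B1 B12 hle1 π hπ1 hπ12 x hxB1 hxinv12 hx hclear1 h4a)
      (fc_H4b_of_H4 h4b B1)
    refine ⟨h, hr ▸ r.2, (hpiO _).1 ?_⟩
    exact fc_cmp_piO_ge B1 B12 hle1 π hπ1 hπ12 x hxB1 hxinv12 hx hclear1 hh
  have hs2 : ∃ h : F0, h ^ m * f ∈ B2 ∧ ∃ y ∈ O, h - 1 = algebraMap A0 F0 π * y := by
    obtain ⟨h, ⟨r, hr⟩, hh⟩ := fc_step1 hπ2 m hm0 f (hrootB B2 hroot2) h32
      (fc_cmp_piO_le B2 B12 hle2 π hπ2 hπ12 x⁻¹ hxB2 hxx hxinv0 hclear2 h4a)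
      (fc_H4b_of_H4 h4b B2)
    refine ⟨h, hr ▸ r.2, (hpiO _).1 ?_⟩
    exact fc_cmp_piO_ge B2 B12 hle2 π hπ2 hπ12 x⁻¹ hxB2 hxx hxinv0 hclear2 hh
  -- the torsion bound
  have hfrac : ∃ a b : F0, a ∈ B1 ∧ b ∈ B1 ∧ b ≠ 0 ∧ f * b = a := by
    obtain ⟨a, b, hb, hab⟩ := IsFractionRing.div_surjective (A := B1) f
    have hb0 : (b : F0) ≠ 0 := by
      intro h0
      exact nonZeroDivisors.ne_zero hb (Subtype.ext h0)
    refine ⟨a, b, a.2, b.2, hb0, ?_⟩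
    rw [← hab]
    exact div_mul_cancel₀ _ hb0
  have hbound := fc_chart_hbound π hx m hm0 f hf0 (Module.Finite.iff_fg.1 hfin1) hfrac
  -- Newton
  obtain ⟨h, hh0, hh1, hh2⟩ := fcn_newton π m hm B1 B2 B12 hle1 hle2 O hBO hloc hπO hrootO
    hroot1 hroot2 hroot12 hsat1 hsat2 hsat12 f hf hs1 hs2 hbound
  obtain ⟨c, hc⟩ := hH0 _ hh1 hh2
  refine ⟨c, h⁻¹, inv_ne_zero hh0, ?_⟩
  rw [hc, inv_pow, mul_assoc, mul_comm f, ← mul_assoc, mul_inv_cancel₀ (pow_ne_zero m hh0), one_mul]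

end Main

end Fermat.Agent.JT3
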