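import Mathlib
import Fermat.Prelude.Def_AlgebraicCurve_DivisorClassGroup
import Fermat.Agent.JT3.FCore.Main

/-!
# JT3 / F-core: hypothesis (h4b) from the places of `F0 / K0`

An abstract DVR `O'` with fraction field `F0` which contains `A0[1/π] = K0` is (the valuation ring
of) a prelude `Place K0 F0`.  Hence `(∀ Q : Place K0 F0, (m : ℤ) ∣ Q.ord f) → fc_H4 π m f`.
-/

set_option autoImplicit false
set_option linter.unusedSectionVars false

namespace Fermat.Agent.JT3

open AlgebraicCurve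

section PlaceBridge

universe v

variable {A0 K0 : Type*} {F0 : Type v} [CommRing A0] [Field K0] [Field F0] [Algebra A0 K0]
  [Algebra K0 F0] [Algebra A0 F0] [IsScalarTower A0 K0 F0]

/-- The valuation subring of `F0` attached to a valuation ring `O'` with fraction field `F0`. -/
def fc_valSub (O' : Type*) [CommRing O'] [IsDomain O'] [ValuationRing O'] [Algebra O' F0]
    [IsFractionRing O' F0] : ValuationSubring F0 :=
  { (algebraMap O' F0).range with
    mem_or_inv_mem' := fun z => by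
      rcases ValuationRing.isInteger_or_isInteger O' z with ⟨o, ho⟩ | ⟨o, ho⟩
      · exact Or.inl ⟨o, ho⟩
      · exact Or.inr ⟨o, ho⟩ }

theorem fc_mem_valSub {O' : Type*} [CommRing O'] [IsDomain O'] [ValuationRing O'] [Algebra O' F0]
    [IsFractionRing O' F0] {z : F0} :
    z ∈ fc_valSub (F0 := F0) O' ↔ ∃ o : O', algebraMap O' F0 o = z := Iff.rfl

/-- **(h4b) from places.** -/
theorem fc_H4_of_places (π : A0)
    (hK0 : ∀ c : K0, ∃ (a : A0) (n : ℕ), c * algebraMap A0 K0 π ^ n = algebraMap A0 K0 a)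
    (hπ0 : algebraMap A0 K0 π ≠ 0)
    (m : ℕ) (f : F0) (hf0 : f ≠ 0)
    (h : ∀ Q : Place K0 F0, (m : ℤ) ∣ Q.ord f) : fc_H4 π m f := by
  intro O' _ _ _ _ _ hA hπinv
  have hinj : Function.Injective (algebraMap O' F0) := IsFractionRing.injective O' F0
  set V : ValuationSubring F0 := fc_valSub (F0 := F0) O' with hV
  -- the ring isomorphism `O' ≃ V`
  let φ : O' →+* V := (algebraMap O' F0).codRestrict V.toSubring fun o => ⟨o, rfl⟩
  have hφ : ∀ o : O', ((φ o : V) : F0) = algebraMap O' F0 o := fun o => rfl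
  have hφinj : Function.Injective φ := fun a b hab => hinj (by rw [← hφ, ← hφ, hab])
  have hφsurj : Function.Surjective φ := by
    rintro ⟨z, o, rfl⟩
    exact ⟨o, rfl⟩
  have hPIR : IsPrincipalIdealRing V := IsPrincipalIdealRing.of_surjective φ hφsurj
  -- constants
  have hπF : algebraMap A0 F0 π ≠ 0 := by
    rw [IsScalarTower.algebraMap_apply A0 K0 F0]
    exact (map_ne_zero _).2 hπ0
  have hconst : ∀ c : K0, algebraMap K0 F0 c ∈ V := by
    intro c
    obtain ⟨a, n, hc⟩ := hK0 c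
    have h1 : algebraMap K0 F0 c = algebraMap A0 F0 a * ((algebraMap A0 F0 π)⁻¹) ^ n := by
      have := congrArg (algebraMap K0 F0) hc
      rw [map_mul, map_pow, ← IsScalarTower.algebraMap_apply, ← IsScalarTower.algebraMap_apply]
        at this
      rw [← this, inv_pow, mul_assoc, mul_inv_cancel₀ (pow_ne_zero n hπF), mul_one]
    rw [h1]
    exact V.mul_mem _ _ (hA a) (pow_mem (show (algebraMap A0 F0 π)⁻¹ ∈ V from hπinv) n)
  -- not the whole field
  have hne : V ≠ ⊤ := by
    intro htop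
    obtain ⟨ϖ0, hϖ0⟩ := IsDiscreteValuationRing.exists_irreducible O'
    have hmem : (algebraMap O' F0 ϖ0)⁻¹ ∈ V := by rw [htop]; exact ValuationSubring.mem_top _
    obtain ⟨o, ho⟩ := hmem
    apply hϖ0.not_isUnit
    refine IsUnit.of_mul_eq_one o (hinj ?_)
    rw [map_mul, ho, map_one, mul_inv_cancel₀]
    exact (map_ne_zero_iff _ hinj).2 hϖ0.ne_zero
  obtain ⟨Q, hQ⟩ : ∃ Q : Place K0 F0, Q.toValuationSubring = V := ⟨⟨V, hconst, hne, hPIR⟩, rfl⟩
  have hQmem : ∀ z : F0, z ∈ Q.toValuationSubring ↔ ∃ o : O', algebraMap O' F0 o = z := by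
    intro z; rw [hQ]; exact Iff.rfl
  obtain ⟨k, hk⟩ := h Q
  obtain ⟨ϖ, hϖ⟩ := IsDiscreteValuationRing.exists_irreducible Q.toValuationSubring
  obtain ⟨u, hu⟩ := Q.exists_unit_mul_zpow hf0 hϖ
  obtain ⟨o, ho⟩ := (hQmem _).1 (u : Q.toValuationSubring).2
  obtain ⟨o', ho'⟩ := (hQmem _).1 ((u⁻¹ : (Q.toValuationSubring)ˣ) : Q.toValuationSubring).2
  have huu : ((u : Q.toValuationSubring) : F0) *
      (((u⁻¹ : (Q.toValuationSubring)ˣ) : Q.toValuationSubring) : F0) = 1 := by
    have h1 : (u : Q.toValuationSubring) *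
        ((u⁻¹ : (Q.toValuationSubring)ˣ) : Q.toValuationSubring) = 1 := u.mul_inv
    have h2 := congrArg (fun t : Q.toValuationSubring => (t : F0)) h1
    exact h2
  have hoo : o * o' = 1 := by
    apply hinj
    rw [map_mul, ho, ho', map_one]
    exact huu
  refine ⟨⟨o, o', hoo, by rw [mul_comm]; exact hoo⟩, (ϖ : F0) ^ k, ?_⟩
  change f = algebraMap O' F0 o * ((ϖ : F0) ^ k) ^ m
  rw [ho, ← zpow_natCast, ← zpow_mul, mul_comm k, ← hk]
  exact hu

end PlaceBridge

end Fermat.Agent.JT3
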