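import Mathlib
import Fermat.Agent.JT3.FCore.Main
import Fermat.Agent.JT3.FCore.PlaceBridge
import Fermat.Agent.JT3.FCore.H0Const

/-!
# JT3 / F-core: the main theorem in the form consumed by the instantiation layer

`fc_final`: `fc_main` with (H⁰) discharged by `fch_H0` (from "`K0` is algebraically closed in
`F0`") and (h4b) discharged by `fc_H4_of_places` (from "`m ∣ ord_Q f` for every place `Q` of
`F0 / K0`").  `A0` is a DVR with uniformiser `π` and fraction field `K0`.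
-/

set_option autoImplicit false
set_option linter.unusedSectionVars false

namespace Fermat.Agent.JT3

open AlgebraicCurve

section Final

universe v

variable {A0 K0 : Type*} {F0 : Type v} [CommRing A0] [IsDomain A0] [IsDiscreteValuationRing A0]
  [Field K0] [Field F0] [Algebra A0 K0] [IsFractionRing A0 K0] [Algebra K0 F0] [Algebra A0 F0]
  [IsScalarTower A0 K0 F0]

/-- `K0 = A0[1/π]` for a DVR `A0` with uniformiser `π`. -/
theorem fc_hK0_of_dvr {π : A0} (hπ : Irreducible π) (c : K0) :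
    ∃ (a : A0) (n : ℕ), c * algebraMap A0 K0 π ^ n = algebraMap A0 K0 a := by
  have hinj : Function.Injective (algebraMap A0 K0) := IsFractionRing.injective A0 K0
  obtain ⟨a, b, hb, rfl⟩ := IsFractionRing.div_surjective (A := A0) c
  have hb0 : b ≠ 0 := nonZeroDivisors.ne_zero hb
  obtain ⟨n, u, hu⟩ := IsDiscreteValuationRing.eq_unit_mul_pow_irreducible hb0 hπ
  refine ⟨a * ((u⁻¹ : A0ˣ) : A0), n, ?_⟩
  have hbK : algebraMap A0 K0 b ≠ 0 := (map_ne_zero_iff _ hinj).2 hb0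
  have huu : algebraMap A0 K0 ((u⁻¹ : A0ˣ) : A0) * algebraMap A0 K0 (u : A0) = 1 := by
    rw [← map_mul, ← Units.val_mul, inv_mul_cancel, Units.val_one, map_one]
  have hbu : algebraMap A0 K0 b = algebraMap A0 K0 (u : A0) * algebraMap A0 K0 π ^ n := by
    rw [hu, map_mul, map_pow]
  rw [map_mul, div_mul_eq_mul_div, div_eq_iff hbK, hbu]
  linear_combination (-(algebraMap A0 K0 a * algebraMap A0 K0 π ^ n)) * huu

/-- **F-core, final form.** -/
theorem fc_final {π : A0} (hπ : Irreducible π) {x : F0} (hx : Transcendental K0 x)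
    (hconst : ∀ z : F0, IsAlgebraic K0 z → z ∈ (algebraMap K0 F0).range)
    (m : ℕ) (hm : IsUnit (m : A0)) (f : F0) (hf0 : f ≠ 0)
    [Algebra.IsAlgebraic (Algebra.adjoin A0 ({x} : Set F0)) F0]
    [Algebra.IsAlgebraic (Algebra.adjoin A0 ({x⁻¹} : Set F0)) F0]
    [Algebra.IsAlgebraic (Algebra.adjoin A0 ({x, x⁻¹} : Set F0)) F0]
    (hfin1 : Module.Finite (Algebra.adjoin A0 ({x} : Set F0))
      (integralClosure (Algebra.adjoin A0 ({x} : Set F0)) F0))
    (hfin2 : Module.Finite (Algebra.adjoin A0 ({x⁻¹} : Set F0))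
      (integralClosure (Algebra.adjoin A0 ({x⁻¹} : Set F0)) F0))
    (hπ1 : Prime (algebraMap A0 (fc_chart A0 ({x} : Set F0)) π))
    (hπ2 : Prime (algebraMap A0 (fc_chart A0 ({x⁻¹} : Set F0)) π))
    (hπ12 : Prime (algebraMap A0 (fc_chart A0 ({x, x⁻¹} : Set F0)) π))
    (h31 : ∀ 𝔫 : Ideal (fc_chart A0 ({x} : Set F0)), 𝔫.IsMaximal →
      algebraMap A0 (fc_chart A0 ({x} : Set F0)) π ∈ 𝔫 →
      ∃ u ∈ 𝔫, ∀ z ∈ 𝔫, ∃ s, s ∉ 𝔫 ∧
        s * z ∈ Ideal.span {algebraMap A0 (fc_chart A0 ({x} : Set F0)) π, u})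
    (h32 : ∀ 𝔫 : Ideal (fc_chart A0 ({x⁻¹} : Set F0)), 𝔫.IsMaximal →
      algebraMap A0 (fc_chart A0 ({x⁻¹} : Set F0)) π ∈ 𝔫 →
      ∃ u ∈ 𝔫, ∀ z ∈ 𝔫, ∃ s, s ∉ 𝔫 ∧
        s * z ∈ Ideal.span {algebraMap A0 (fc_chart A0 ({x⁻¹} : Set F0)) π, u})
    (h4a : f - 1 ∈ fc_piO hπ12)
    (h4b : ∀ Q : Place K0 F0, (m : ℤ) ∣ Q.ord f) :
    ∃ (c : A0) (g : F0), g ≠ 0 ∧ f = algebraMap A0 F0 c * g ^ m := by
  have hx0 : x ≠ 0 := by
    rintro rfl
    exact hx isAlgebraic_zero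
  have hπK : algebraMap A0 K0 π ≠ 0 :=
    (map_ne_zero_iff _ (IsFractionRing.injective A0 K0)).2 hπ.ne_zero
  have hH4 : fc_H4 π m f :=
    fc_H4_of_places π (fc_hK0_of_dvr hπ) hπK m f hf0 h4b
  exact fc_main π hx0 m hm f hfin1 hfin2 hπ1 hπ2 hπ12 h31 h32 h4a hH4
    (fun z h1 h2 => fch_H0 x hx hconst z h1 h2)

end Final

end Fermat.Agent.JT3
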