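import Mathlib
import Fermat.Agent.JT3.FCore.Final

/-!
# JT3 / F-core in function-field form (`fc_funField`)

`A0` a DVR with fraction field `L` of characteristic zero, `F0 / L` a function field: `x ∈ F0`
transcendental over `L`, `F0` finite over `L(x)`.  Then the finiteness and algebraicity hypotheses
of `fc_main` hold: `A0[y] ≅ A0[X]` is a noetherian integrally closed domain with fraction field
`L(y)` (`y = x` or `x⁻¹`), and `IsIntegralClosure.finite` applies.
-/

set_option autoImplicit false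
set_option linter.unusedSectionVars false
set_option linter.style.haveILetI false

namespace Fermat.Agent.JT3

open Polynomial IntermediateField AlgebraicCurve

section FunField

universe v

variable {A0 L : Type*} {F0 : Type v} [CommRing A0] [IsDomain A0]
  [Field L] [Field F0] [Algebra A0 L] [IsFractionRing A0 L] [Algebra L F0] [Algebra A0 F0]
  [IsScalarTower A0 L F0]

/-- `A0[y] ⊆ L(y)`. -/
theorem fc_ff_adjoin_le (y : F0) :
    Algebra.adjoin A0 ({y} : Set F0) ≤ (L⟮y⟯.toSubalgebra).restrictScalars A0 := by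
  refine Algebra.adjoin_le ?_
  intro z hz
  rw [Set.mem_singleton_iff] at hz
  subst hz
  exact mem_adjoin_simple_self L z

/-- The inclusion `A0[y] → L(y)`. -/
def fc_ff_incl (y : F0) : Algebra.adjoin A0 ({y} : Set F0) →+* L⟮y⟯ :=
  (Subalgebra.inclusion (fc_ff_adjoin_le (A0 := A0) (L := L) y)).toRingHom

theorem fc_ff_incl_coe (y : F0) (r : Algebra.adjoin A0 ({y} : Set F0)) :
    ((fc_ff_incl (L := L) y r : L⟮y⟯) : F0) = (r : F0) := rfl

/-- `L(y)` is the fraction field of `A0[y]`. -/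
theorem fc_ff_isFractionRing (y : F0) :
    letI : Algebra (Algebra.adjoin A0 ({y} : Set F0)) L⟮y⟯ := (fc_ff_incl (L := L) y).toAlgebra
    IsFractionRing (Algebra.adjoin A0 ({y} : Set F0)) L⟮y⟯ := by
  letI : Algebra (Algebra.adjoin A0 ({y} : Set F0)) L⟮y⟯ := (fc_ff_incl (L := L) y).toAlgebra
  have hinj : Function.Injective (algebraMap (Algebra.adjoin A0 ({y} : Set F0)) L⟮y⟯) := by
    intro a b hab
    apply Subtype.ext
    have := congrArg (fun t : L⟮y⟯ => (t : F0)) hab
    exact this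
  haveI : FaithfulSMul (Algebra.adjoin A0 ({y} : Set F0)) L⟮y⟯ :=
    (faithfulSMul_iff_algebraMap_injective _ _).2 hinj
  refine IsFractionRing.of_field _ _ fun z => ?_
  obtain ⟨r, s, hrs⟩ := (mem_adjoin_simple_iff L (z : F0)).1 z.2
  obtain ⟨b, hb, hbr⟩ := IsLocalization.integerNormalization_spec (nonZeroDivisors A0) r
  obtain ⟨b', hb', hbs⟩ := IsLocalization.integerNormalization_spec (nonZeroDivisors A0) s
  set r' := IsLocalization.integerNormalization (nonZeroDivisors A0) r with hr'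
  set s' := IsLocalization.integerNormalization (nonZeroDivisors A0) s with hs'
  have hymem : y ∈ Algebra.adjoin A0 ({y} : Set F0) := Algebra.subset_adjoin rfl
  have hmemR : ∀ p : A0[X], aeval y p ∈ Algebra.adjoin A0 ({y} : Set F0) := fun p => by
    rw [Algebra.adjoin_singleton_eq_range_aeval]; exact ⟨p, rfl⟩
  have hr1 : aeval y r' = algebraMap A0 F0 b * aeval y r := by
    have h1 : aeval y (r'.map (algebraMap A0 L)) = aeval y r' := aeval_map_algebraMap L y r'
    rw [← h1, hbr, Algebra.smul_def, map_mul, IsScalarTower.algebraMap_apply A0 L F0]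
    congr 1
    simp [Polynomial.algebraMap_apply]
  have hs1 : aeval y s' = algebraMap A0 F0 b' * aeval y s := by
    have h1 : aeval y (s'.map (algebraMap A0 L)) = aeval y s' := aeval_map_algebraMap L y s'
    rw [← h1, hbs, Algebra.smul_def, map_mul, IsScalarTower.algebraMap_apply A0 L F0]
    congr 1
    simp [Polynomial.algebraMap_apply]
  have hbF : algebraMap A0 F0 b ≠ 0 := by
    rw [IsScalarTower.algebraMap_apply A0 L F0]
    exact (_root_.map_ne_zero _).2 ((map_ne_zero_iff _ (IsFractionRing.injective A0 L)).2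
      (nonZeroDivisors.ne_zero hb))
  have hb'F : algebraMap A0 F0 b' ≠ 0 := by
    rw [IsScalarTower.algebraMap_apply A0 L F0]
    exact (_root_.map_ne_zero _).2 ((map_ne_zero_iff _ (IsFractionRing.injective A0 L)).2
      (nonZeroDivisors.ne_zero hb'))
  refine ⟨⟨algebraMap A0 F0 b' * aeval y r', mul_mem (Subalgebra.algebraMap_mem _ b') (hmemR r')⟩,
    ⟨algebraMap A0 F0 b * aeval y s', mul_mem (Subalgebra.algebraMap_mem _ b) (hmemR s')⟩, ?_⟩
  apply Subtype.ext
  change (z : F0) = (algebraMap A0 F0 b' * aeval y r') / (algebraMap A0 F0 b * aeval y s')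
  rw [hrs, hr1, hs1]
  have : algebraMap A0 F0 b' * (algebraMap A0 F0 b * aeval y r) /
      (algebraMap A0 F0 b * (algebraMap A0 F0 b' * aeval y s)) =
      ((algebraMap A0 F0 b' * algebraMap A0 F0 b) * aeval y r) /
      ((algebraMap A0 F0 b' * algebraMap A0 F0 b) * aeval y s) := by ring_nf
  rw [this, mul_div_mul_left _ _ (mul_ne_zero hb'F hbF)]

variable [IsDiscreteValuationRing A0]

omit [IsFractionRing A0 L] in
/-- `A0[y] ≅ A0[X]` is integrally closed. -/
theorem fc_ff_isIntegrallyClosed {y : F0} (hy : Transcendental A0 y) :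
    IsIntegrallyClosed (Algebra.adjoin A0 ({y} : Set F0)) := by
  have hinj : Function.Injective (aeval y : A0[X] →ₐ[A0] F0) :=
    transcendental_iff_injective.1 hy
  have e1 : A0[X] ≃ₐ[A0] (aeval y : A0[X] →ₐ[A0] F0).range :=
    AlgEquiv.ofInjective (aeval y) hinj
  have e2 : (aeval y : A0[X] →ₐ[A0] F0).range ≃ₐ[A0] Algebra.adjoin A0 ({y} : Set F0) :=
    Subalgebra.equivOfEq _ _ (Algebra.adjoin_singleton_eq_range_aeval A0 y).symm
  exact IsIntegrallyClosed.of_equiv (e1.trans e2).toRingEquiv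

theorem fc_ff_transcendental {y : F0} (hy : Transcendental L y) : Transcendental A0 y := by
  intro h
  exact hy (h.extendScalars (IsFractionRing.injective A0 L))

variable [CharZero L]

/-- Finiteness of the chart over its coordinate ring. -/
theorem fc_ff_finite {y : F0} (hy : Transcendental L y) [FiniteDimensional L⟮y⟯ F0] :
    Module.Finite (Algebra.adjoin A0 ({y} : Set F0))
      (integralClosure (Algebra.adjoin A0 ({y} : Set F0)) F0) := by
  letI : Algebra (Algebra.adjoin A0 ({y} : Set F0)) L⟮y⟯ := (fc_ff_incl (L := L) y).toAlgebra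
  haveI : IsScalarTower (Algebra.adjoin A0 ({y} : Set F0)) L⟮y⟯ F0 :=
    IsScalarTower.of_algebraMap_eq fun _ => rfl
  haveI : IsFractionRing (Algebra.adjoin A0 ({y} : Set F0)) L⟮y⟯ := fc_ff_isFractionRing y
  haveI : IsIntegrallyClosed (Algebra.adjoin A0 ({y} : Set F0)) :=
    fc_ff_isIntegrallyClosed (fc_ff_transcendental (L := L) hy)
  have hFT : Algebra.FiniteType A0 (Algebra.adjoin A0 ({y} : Set F0)) := by
    rw [← Subalgebra.fg_iff_finiteType]
    exact ⟨{y}, by rw [Finset.coe_singleton]⟩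
  haveI : IsNoetherianRing (Algebra.adjoin A0 ({y} : Set F0)) :=
    Algebra.FiniteType.isNoetherianRing A0 _
  exact IsIntegralClosure.finite (Algebra.adjoin A0 ({y} : Set F0)) L⟮y⟯ F0
    (integralClosure (Algebra.adjoin A0 ({y} : Set F0)) F0)

omit [IsDiscreteValuationRing A0] [CharZero L] in
/-- `F0` is algebraic over `A0[y]`. -/
theorem fc_ff_isAlgebraic (y : F0) [FiniteDimensional L⟮y⟯ F0] :
    Algebra.IsAlgebraic (Algebra.adjoin A0 ({y} : Set F0)) F0 := by
  letI : Algebra (Algebra.adjoin A0 ({y} : Set F0)) L⟮y⟯ := (fc_ff_incl (L := L) y).toAlgebra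
  haveI : IsScalarTower (Algebra.adjoin A0 ({y} : Set F0)) L⟮y⟯ F0 :=
    IsScalarTower.of_algebraMap_eq fun _ => rfl
  haveI : IsFractionRing (Algebra.adjoin A0 ({y} : Set F0)) L⟮y⟯ := fc_ff_isFractionRing y
  exact (IsFractionRing.comap_isAlgebraic_iff (K := L⟮y⟯)).2 inferInstance

omit [IsDomain A0] [IsFractionRing A0 L] [IsDiscreteValuationRing A0] [CharZero L] in
/-- Algebraicity passes to a bigger coordinate ring. -/
theorem fc_ff_isAlgebraic_mono {S T : Set F0} (hST : S ⊆ T)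
    (h : Algebra.IsAlgebraic (Algebra.adjoin A0 S) F0) :
    Algebra.IsAlgebraic (Algebra.adjoin A0 T) F0 := by
  refine ⟨fun z => ?_⟩
  obtain ⟨p, hp0, hpz⟩ := h.isAlgebraic z
  set φ : Algebra.adjoin A0 S →+* Algebra.adjoin A0 T :=
    (Subalgebra.inclusion (Algebra.adjoin_mono hST)).toRingHom with hφ
  have hφinj : Function.Injective φ := Subalgebra.inclusion_injective _
  refine ⟨p.map φ, (Polynomial.map_ne_zero_iff hφinj).2 hp0, ?_⟩
  rw [aeval_def, eval₂_map]
  have : (algebraMap (Algebra.adjoin A0 T) F0).comp φ = algebraMap (Algebra.adjoin A0 S) F0 := by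
    ext r; rfl
  rw [this, ← aeval_def]
  exact hpz

/-- **F-core, function-field form.**  The finiteness and algebraicity hypotheses of `fc_final`
are automatic when `F0` is finite over `L(x)` with `L = Frac A0` of characteristic zero. -/
theorem fc_funField {π : A0} (hπ : Irreducible π) {x : F0} (hx : Transcendental L x)
    [FiniteDimensional L⟮x⟯ F0]
    (hconst : ∀ z : F0, IsAlgebraic L z → z ∈ (algebraMap L F0).range)
    (m : ℕ) (hm : IsUnit (m : A0)) (f : F0) (hf0 : f ≠ 0)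
    (hπ1 : Prime (algebraMap A0 (fc_chart A0 ({x} : Set F0)) π))
    (hπ2 : Prime (algebraMap A0 (fc_chart A0 ({x⁻¹} : Set F0)) π))
    (hπ12 : Prime (algebraMap A0 (fc_chart A0 ({x, x⁻¹} : Set F0)) π))
    (h31 : ∀ 𝔫 : Ideal (fc_chart A0 ({x} : Set F0)), 𝔫.IsMaximal →
      algebraMap A0 (fc_chart A0 ({x} : Set F0)) π ∈ 𝔫 →
      ∃ u ∈ 𝔫, ∀ z ∈ 𝔫, ∃ s, s ∉ 𝔫 ∧
        s * z ∈ Ideal.span {algebraMap A0 (fc_chart A0 ({x} : Set F0)) π, u})
    (h32 : ∀ 𝔫 : Ideal (fc_chart A0 ({x⁻¹} : Set F0)), 𝔫.IsMaximal →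
      algebraMap A0 (fc_chart A0 ({x⁻¹} : Set F0)) π ∈ 𝔫 →
      ∃ u ∈ 𝔫, ∀ z ∈ 𝔫, ∃ s, s ∉ 𝔫 ∧
        s * z ∈ Ideal.span {algebraMap A0 (fc_chart A0 ({x⁻¹} : Set F0)) π, u})
    (h4a : f - 1 ∈ fc_piO hπ12)
    (h4b : ∀ Q : Place L F0, (m : ℤ) ∣ Q.ord f) :
    ∃ (c : A0) (g : F0), g ≠ 0 ∧ f = algebraMap A0 F0 c * g ^ m := by
  have hxi : Transcendental L x⁻¹ := fun h => hx (IsAlgebraic.inv_iff.mp h)
  haveI hfd2 : FiniteDimensional L⟮x⁻¹⟯ F0 := by
    rw [rt_adjoin_inv]; infer_instance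
  haveI i1 : Algebra.IsAlgebraic (Algebra.adjoin A0 ({x} : Set F0)) F0 :=
    fc_ff_isAlgebraic (L := L) x
  haveI i2 : Algebra.IsAlgebraic (Algebra.adjoin A0 ({x⁻¹} : Set F0)) F0 :=
    fc_ff_isAlgebraic (L := L) x⁻¹
  haveI i3 : Algebra.IsAlgebraic (Algebra.adjoin A0 ({x, x⁻¹} : Set F0)) F0 :=
    fc_ff_isAlgebraic_mono (S := {x}) (T := {x, x⁻¹}) (by simp) i1
  exact fc_final (K0 := L) hπ hx hconst m hm f hf0 (fc_ff_finite (L := L) hx)
    (fc_ff_finite (L := L) hxi) hπ1 hπ2 hπ12 h31 h32 h4a h4b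

end FunField

end Fermat.Agent.JT3
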