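import Mathlib
import Fermat.Agent.JT3.FCore.H1Module

/-!
# JT3 / F-core: exports for the connectedness leaf

`fc_chart_H1_finite`: for the charts `B₁, B₂ ≤ B₁₂` of `fc_main`, the Čech `H¹` of the structure
sheaf, `B₁₂ ⧸ (B₁ + B₂)`, is a finite `A0`-module (in the shape consumed by `jf_card_idem_le` and
`jf_exists_lift_idem`), as soon as `B₁` is finite over `A0[x]`.
-/

set_option autoImplicit false
set_option linter.unusedSectionVars false

namespace Fermat.Agent.JT3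

section Exports

universe v

variable {A0 : Type*} [CommRing A0] [IsNoetherianRing A0] {F0 : Type v} [Field F0] [Algebra A0 F0]

/-- Submodule form: `B₁₂ ≤ (B₁ ⊔ B₂) ⊔ T` with `T ≤ B₁₂` finitely generated over `A0`. -/
theorem fc_chart_le_sup {x : F0} (hx : x ≠ 0)
    (hfin : Module.Finite (Algebra.adjoin A0 ({x} : Set F0))
      (integralClosure (Algebra.adjoin A0 ({x} : Set F0)) F0)) :
    ∃ T : Submodule A0 F0, T.FG ∧ T ≤ Subalgebra.toSubmodule (fc_chart A0 ({x, x⁻¹} : Set F0)) ∧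
      Subalgebra.toSubmodule (fc_chart A0 ({x, x⁻¹} : Set F0)) ≤
        (Subalgebra.toSubmodule (fc_chart A0 ({x} : Set F0)) ⊔
          Subalgebra.toSubmodule (fc_chart A0 ({x⁻¹} : Set F0))) ⊔ T := by
  set B1 := fc_chart A0 ({x} : Set F0) with hB1
  set B2 := fc_chart A0 ({x⁻¹} : Set F0) with hB2
  set B12 := fc_chart A0 ({x, x⁻¹} : Set F0) with hB12
  set M1 := Subalgebra.toSubmodule B1 with hM1
  set M2 := Subalgebra.toSubmodule B2 with hM2
  set M12 := Subalgebra.toSubmodule B12 with hM12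
  have hxB1 : x ∈ B1 := fc_x_mem_chart x
  have hxB2 : x⁻¹ ∈ B2 := fc_x_mem_chart x⁻¹
  have hx1 : ∀ b ∈ M1, x * b ∈ M1 := fun b hb => B1.mul_mem hxB1 hb
  have hy2 : ∀ b ∈ M2, x⁻¹ * b ∈ M2 := fun b hb => B2.mul_mem hxB2 hb
  have h12 : ∀ μ ∈ M12, ∃ n : ℕ, x ^ n * μ ∈ M1 := fun μ hμ => fc_clear1 hx hμ
  have h1in2 : ∀ b ∈ M1, ∃ e : ℕ, x⁻¹ ^ e * b ∈ M2 := fun b hb =>
    fc_clear2 hx (fc_chart1_le x hb)
  obtain ⟨S, hS, hgen⟩ := fc_exists_gen x B1 (Module.Finite.iff_fg.1 hfin) (fun z => Iff.rfl) M1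
    hx1 1 one_ne_zero (fun h hh => by rw [mul_one]; exact hh)
  obtain ⟨T, hTfg, hle⟩ := fc_gen x x⁻¹ (mul_inv_cancel₀ hx) M1 M2 M12 hx1 hy2 h12 h1in2 S hS hgen
  have hTnoeth : IsNoetherian A0 T := isNoetherian_of_fg_of_noetherian T hTfg
  refine ⟨T ⊓ M12, isNoetherian_submodule.1 hTnoeth _ inf_le_left, inf_le_right, ?_⟩
  intro z hz
  obtain ⟨a, ha, t, ht, rfl⟩ := Submodule.mem_sup.1 (hle hz)
  have ha12 : a ∈ M12 := by
    obtain ⟨b1, hb1, b2, hb2, rfl⟩ := Submodule.mem_sup.1 ha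
    exact M12.add_mem (fc_chart1_le x hb1) (fc_chart2_le x hb2)
  have ht12 : t ∈ M12 := by
    have := M12.sub_mem hz ha12
    rwa [add_sub_cancel_left] at this
  exact Submodule.add_mem_sup ha ⟨ht, ht12⟩

/-- **Finiteness of `H¹(O)`** in the shape of `jf_card_idem_le`. -/
theorem fc_chart_H1_finite {x : F0} (hx : x ≠ 0)
    (hfin : Module.Finite (Algebra.adjoin A0 ({x} : Set F0))
      (integralClosure (Algebra.adjoin A0 ({x} : Set F0)) F0)) :
    Module.Finite A0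
      (fc_chart A0 ({x, x⁻¹} : Set F0) ⧸
        (LinearMap.range (Subalgebra.inclusion (fc_chart1_le (A0 := A0) x)).toLinearMap ⊔
          LinearMap.range (Subalgebra.inclusion (fc_chart2_le (A0 := A0) x)).toLinearMap)) := by
  obtain ⟨T, hTfg, hT12, hle⟩ := fc_chart_le_sup (A0 := A0) hx hfin
  set B12 := fc_chart A0 ({x, x⁻¹} : Set F0) with hB12
  set U : Submodule A0 B12 :=
    LinearMap.range (Subalgebra.inclusion (fc_chart1_le (A0 := A0) x)).toLinearMap ⊔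
      LinearMap.range (Subalgebra.inclusion (fc_chart2_le (A0 := A0) x)).toLinearMap with hU
  have hTfin : Module.Finite A0 T := Module.Finite.iff_fg.2 hTfg
  -- the map `T → B₁₂ ⧸ U`
  let g0 : T →ₗ[A0] B12 :=
    { toFun := fun t => ⟨t, hT12 t.2⟩
      map_add' := fun _ _ => rfl
      map_smul' := fun _ _ => rfl }
  let g : T →ₗ[A0] (B12 ⧸ U) := U.mkQ ∘ₗ g0
  refine Module.Finite.of_surjective g ?_
  intro q
  obtain ⟨z, rfl⟩ := Submodule.Quotient.mk_surjective U q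
  obtain ⟨a, ha, t, ht, hz⟩ := Submodule.mem_sup.1 (hle z.2)
  obtain ⟨b1, hb1, b2, hb2, rfl⟩ := Submodule.mem_sup.1 ha
  refine ⟨⟨t, ht⟩, ?_⟩
  change Submodule.Quotient.mk (g0 ⟨t, ht⟩) = Submodule.Quotient.mk z
  rw [Submodule.Quotient.eq]
  have h1 : (⟨b1, fc_chart1_le x hb1⟩ : B12) ∈ U :=
    Submodule.mem_sup_left ⟨⟨b1, hb1⟩, rfl⟩
  have h2 : (⟨b2, fc_chart2_le x hb2⟩ : B12) ∈ U :=
    Submodule.mem_sup_right ⟨⟨b2, hb2⟩, rfl⟩
  have h3 : g0 ⟨t, ht⟩ - z = -((⟨b1, fc_chart1_le x hb1⟩ : B12) + ⟨b2, fc_chart2_le x hb2⟩) := by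
    apply Subtype.ext
    change t - (z : F0) = -(b1 + b2)
    rw [← hz]; ring
  rw [h3]
  exact U.neg_mem (U.add_mem h1 h2)

end Exports

end Fermat.Agent.JT3
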